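import Fermat.Agent.Ribet.H573.SplitLift
import Fermat.Agent.Ribet.H158.WallQSlope

/-!
# Row RIBET, WALL-q, leaf FROB-AL — dictionary DICT-A (helper818)

From the series vocabulary of `H158.WallQ.SplitGenQ` to the valuation vocabulary of
`H818.kummerSwapBar`: a function `f` of level `N` (`M' ∣ N`, `A` over `q`) one of whose reductions
is `c · h ^ m` with `c ∈ kˣ`, `h ∈ k(X₀(M'))ˣ` is an `m`-th power times an element of
`1 + 𝔪_{V∞}`  (`k` is algebraically closed: the constant is an `m`-th power; `F_k(M')` lifts to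
`V∞`: `H573.exists_isRedInf_full`).

* `exists_root_inf818`, `exists_root_zero818`, `splitGenQ_roots818`.
-/

set_option autoImplicit false
set_option linter.unusedSectionVars false
set_option linter.unusedVariables false
set_option linter.style.haveILetI false
set_option synthInstance.maxHeartbeats 400000
set_option maxHeartbeats 1000000

noncomputable section

namespace Fermat.Agent.Ribet.H818

open AlgebraicCurve ModularCurve HahnSeries
open Fermat.Agent.S24 Fermat.Agent.A2.H528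
open Fermat.Agent.Ribet.H884 Fermat.Agent.Ribet.H158.WallQ

section Dict

variable {q : ℕ} {A : ValuationSubring Kbar}

/-- **DICT-A on `C∞`.** -/
theorem exists_root_inf818 (hq : q.Prime) (hA : A.LiesOverPrime q) (M' N m : ℕ) [NeZero N]
    (hMN : M' ∣ N) (hm : 0 < m) {f : FF N} {r : LaurentSeries (kA A)}
    (hred : IsRedInf N A f r) (hr : PPowSeries m M' r) :
    ∃ a : FF N, a ≠ 0 ∧
      (Fermat.Agent.A2.H553.VinfModular A hq.ne_zero hA N).valuation (f * (a ^ m)⁻¹ - 1) < 1 := by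
  obtain ⟨hac, hch⟩ := Fermat.Agent.Ribet.H939.resField q hq A hA
  haveI := hac
  obtain ⟨c, h, hc, hh, rfl⟩ := hr
  obtain ⟨c₀, hc₀⟩ := IsAlgClosed.exists_pow_nat_eq c hm
  have hc₀0 : c₀ ≠ 0 := by
    rintro rfl
    rw [zero_pow hm.ne'] at hc₀
    exact hc hc₀.symm
  have hCc₀ : (HahnSeries.C c₀ : LaurentSeries (kA A)) ≠ 0 := by
    intro h0
    apply hc₀0
    have := congrArg (fun x : LaurentSeries (kA A) => x.coeff 0) h0
    simpa using this
  have hh' : (h : LaurentSeries (kA A)) ≠ 0 := fun h0 => hh (Subtype.ext h0)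
  set s : LaurentSeries (kA A) := HahnSeries.C c₀ * (h : LaurentSeries (kA A)) with hs
  have hCmem : (HahnSeries.C c₀ : LaurentSeries (kA A)) ∈ modularFunctionFieldFullC (kA A) M' := by
    have h' := (modularFunctionFieldFullC (kA A) M').algebraMap_mem c₀
    rwa [ModularCurve.algebraMap_laurentSeries_eq_single] at h'
  have hsmem : s ∈ modularFunctionFieldFullC (kA A) M' := mul_mem hCmem h.2
  have hs0 : s ≠ 0 := mul_ne_zero hCc₀ hh'
  have hsm : s ^ m = HahnSeries.C c * (h : LaurentSeries (kA A)) ^ m := by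
    rw [hs, mul_pow, ← map_pow, hc₀]
  obtain ⟨g, hg0, hg⟩ := Fermat.Agent.Ribet.H573.exists_isRedInf_full hq.ne_zero hA M' N hMN s
    hsmem hs0
  have h1 : IsRedInf N A (f * (g ^ m)⁻¹) 1 := by
    have h2 := IsRedInf.mul hred (IsRedInf.inv (Fermat.Agent.Ribet.H573.isRedInf_pow hg m))
    rwa [hsm, mul_inv_cancel₀ (IsRedInf.ne_zero hred)] at h2
  obtain ⟨c', hc', hu⟩ :=
    Fermat.Agent.Ribet.H573.oneAddNonunits_of_isRedInf_one hq.ne_zero hA h1
  obtain ⟨κ, hκ⟩ := IsAlgClosed.exists_pow_nat_eq c' hm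
  have hκ0 : κ ≠ 0 := by
    rintro rfl
    rw [zero_pow hm.ne'] at hκ
    exact hc' hκ.symm
  have hκF : algebraMap Kbar (FF N) κ ≠ 0 := (map_ne_zero _).2 hκ0
  refine ⟨algebraMap Kbar (FF N) κ * g, mul_ne_zero hκF hg0, ?_⟩
  have e : f * ((algebraMap Kbar (FF N) κ * g) ^ m)⁻¹ =
      f * (g ^ m)⁻¹ * (algebraMap Kbar (FF N) c')⁻¹ := by
    rw [mul_pow, ← map_pow, hκ, mul_inv]
    ring
  rw [e]
  exact hu

/-- **DICT-A on `C₀`.** -/
theorem exists_root_zero818 (hq : q.Prime) (hA : A.LiesOverPrime q) (M' N m : ℕ) [NeZero N]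
    (hMN : M' ∣ N) (hm : 0 < m) {f : FF N} {r : LaurentSeries (kA A)}
    (hred : IsRedZero N A f r) (hr : PPowSeries m M' r) :
    ∃ b : FF N, b ≠ 0 ∧
      (Fermat.Agent.A2.H553.VinfModular A hq.ne_zero hA N).valuation
        (wF N (f * (b ^ m)⁻¹) - 1) < 1 := by
  obtain ⟨a, ha, hva⟩ := exists_root_inf818 hq hA M' N m hMN hm (f := wF N f) hred hr
  refine ⟨wF N a, by simpa using ha, ?_⟩
  rw [map_mul, map_inv₀, map_pow, wF_wF]
  exact hva

/-- **DICT-A** for a split generator. -/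
theorem splitGenQ_roots818 (hq : q.Prime) (hA : A.LiesOverPrime q) (M' m : ℕ)
    [NeZero (q * M')] (hm : 0 < m) {f : FF (q * M')} (h : SplitGenQ m q M' A f) :
    (∃ a : FF (q * M'), a ≠ 0 ∧
      (Fermat.Agent.A2.H553.VinfModular A hq.ne_zero hA (q * M')).valuation
        (f * (a ^ m)⁻¹ - 1) < 1) ∧
    ∃ b : FF (q * M'), b ≠ 0 ∧
      (Fermat.Agent.A2.H553.VinfModular A hq.ne_zero hA (q * M')).valuation
        (wF (q * M') (f * (b ^ m)⁻¹) - 1) < 1 := by
  obtain ⟨r₁, r₂, h1, h2, hp1, hp2⟩ := h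
  exact ⟨exists_root_inf818 hq hA M' (q * M') m (dvd_mul_left M' q) hm h1 hp1,
    exists_root_zero818 hq hA M' (q * M') m (dvd_mul_left M' q) hm h2 hp2⟩

end Dict

end Fermat.Agent.Ribet.H818

end
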