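import Fermat.Agent.Ribet.H818.SwapBar
import Fermat.Agent.Ribet.H818.SwapDict
import Fermat.Agent.Ribet.H801.ALWall
import Fermat.Agent.Ribet.H158.WallQGood
import Fermat.Agent.A2.H129.Kummer

/-!
# Row RIBET, WALL-q, leaf **FROB-AL** = `H158.WallQ.Q2GoodStatement` — CLOSED (helper818)

`q2Good : Q2GoodStatement` (VERBATIM, UNCONDITIONAL): at a good level `M'` (`q ∤ M'`, `q` odd,
`q ≥ 5` or `2 ∣ M'`), for `A` over `q` and `m = p ^ n` prime to `q`, with `u = - w_q`
(`H801.wL`, Galois-equivariant, involutive):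

    φ • x = q • u x      for every `x ∈ splitPartQ m q M' A` and every Frobenius `φ` at `A`.

Proof.  The relation `φ • w_q x + q • x = 0` is additive in `x`, so it is enough to prove it on
the generators `x = [D]`, `m D = div f`, `f` with `m`-th power reductions on both components.
`H818.splitGenQ_roots818` (DICT-A) turns the reductions into `f ∈ (F^×)^m · (1 + 𝔪)` at `V∞` and
`V₀`; `H818.kummerSwapBar` (descent to a good level + `levelFrobSwap`) gives
`σ_φ (w_q f) · f ^ q = y ^ m`; `H801.wL_mk_of_kummer` identifies `w_q x` with the class of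
`div (w_q f) / m`; taking divisors, `φ • w_q x + q • x = [div y] = 0`.
-/

set_option autoImplicit false
set_option linter.unusedSectionVars false
set_option linter.unusedVariables false
set_option linter.style.haveILetI false
set_option synthInstance.maxHeartbeats 400000
set_option maxHeartbeats 4000000

noncomputable section

namespace Fermat.Agent.Ribet.H818

open AlgebraicCurve ModularCurve HahnSeries
open Fermat.Agent.S24 Fermat.Agent.A2.H528
open Fermat.Agent.Ribet Fermat.Agent.Ribet.Spec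
open Fermat.Agent.Ribet.H884 Fermat.Agent.Ribet.H158.WallQ Fermat.Agent.Ribet.H801
open Fermat.Agent.S29.H801 (alphaTo betaTo)

/-! ### The Kummer dictionary for a twisted relation -/

section Dict

variable {K F : Type*} [Field K] [Field F] [Algebra K F]

/-- **T'.**  If `div f = m · D`, `div f' = m · D'` and `g f' · f ^ k = y ^ m`, then
`g • [D'] + k • [D] = 0`. -/
theorem smul_add_nsmul_eq_zero_of_kummer818 (g : SemilinearAut K F) (m k : ℕ) (hm : m ≠ 0)
    (D D' : Divisor.degZero (K := K) (F := F)) (f f' : F) (hf : f ≠ 0) (hf' : f' ≠ 0)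
    (hfD : ∀ v : Place K F, v.ord f = (m : ℤ) * (D : Divisor K F) v)
    (hfD' : ∀ v : Place K F, v.ord f' = (m : ℤ) * (D' : Divisor K F) v)
    (y : F) (hy : y ≠ 0) (h : SemilinearAut.toRingAut g f' * f ^ k = y ^ m) :
    g • Pic0.mk D' + k • Pic0.mk D = 0 := by
  set E : Divisor.degZero (K := K) (F := F) := SemilinearAut.degZeroSMulHom g D' + k • D with hE
  have hgoal : g • Pic0.mk D' + k • Pic0.mk D = Pic0.mk E := by
    rw [SemilinearAut.pic0_smul_mk]
    rfl
  rw [hgoal]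
  refine (QuotientAddGroup.eq_zero_iff E).2 ?_
  rw [AddSubgroup.mem_addSubgroupOf]
  refine ⟨y, hy, fun w => ?_⟩
  have hEw : (E : Divisor K F) w = (D' : Divisor K F) (g⁻¹ • w) + k * (D : Divisor K F) w := by
    simp only [hE, AddMemClass.coe_add, SemilinearAut.coe_degZeroSMulHom,
      Finsupp.add_apply, SemilinearAut.divisor_smul_apply, AddSubgroupClass.coe_nsmul,
      Finsupp.smul_apply, nsmul_eq_mul]
  have hgf' : SemilinearAut.toRingAut g f' ≠ 0 := by simpa using hf'
  have h1 : w.ord (SemilinearAut.toRingAut g f') = (g⁻¹ • w).ord f' :=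
    Fermat.Agent.A2.H129.ord_smul_eq g w f'
  have h2 : w.ord (SemilinearAut.toRingAut g f' * f ^ k) =
      (g⁻¹ • w).ord f' + k * w.ord f := by
    rw [w.ord_mul hgf' (pow_ne_zero k hf), h1, Fermat.Agent.A2.H129.ord_pow]
  have h3 : w.ord (y ^ m) = (m : ℤ) * w.ord y := Fermat.Agent.A2.H129.ord_pow w y m
  have hmE : (m : ℤ) * (E : Divisor K F) w = (m : ℤ) * w.ord y := by
    rw [h, h3, hfD', hfD] at h2
    rw [hEw]
    linear_combination -h2
  have hm' : (m : ℤ) ≠ 0 := by exact_mod_cast hm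
  exact mul_left_cancel₀ hm' hmE

end Dict

/-! ### The Kummer statement at the renamed level -/

section To

variable (M q N m : ℕ) [NeZero M] [NeZero q] [NeZero N]

/-- `kummerSwapBar` with the level renamed along `M * q = N`. -/
theorem kummerSwapTo (hN : M * q = N) (hq : q.Prime) (hqM : ¬ q ∣ M)
    (haux : Fermat.Agent.S35.G.HasAux M q) (hm : 0 < m)
    (hqm : ¬ q ∣ m) (A : ValuationSubring Kbar) (hA : A.LiesOverPrime q)
    (s : Kbar ≃ₐ[ℚ] Kbar) (hs : A.IsFrobeniusAt s q)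
    (swB : FF N →+* FF N)
    (hBα : ∀ a : FF M, swB (alphaTo Kbar M q N hN a) = betaTo Kbar M q N hN a)
    (hBβ : ∀ a : FF M, swB (betaTo Kbar M q N hN a) = alphaTo Kbar M q N hN a)
    (f : FF N) (hf : f ≠ 0)
    (hdiv : ∀ v : Place Kbar (FF N), (m : ℤ) ∣ v.ord f)
    (a b : FF N) (ha : a ≠ 0) (hb : b ≠ 0)
    (h1 : (Fermat.Agent.A2.H553.VinfModular A hq.ne_zero hA N).valuation
      (f * (a ^ m)⁻¹ - 1) < 1)
    (h2 : (Fermat.Agent.A2.H553.VinfModular A hq.ne_zero hA N).valuation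
      (wF N (f * (b ^ m)⁻¹) - 1) < 1) :
    ∃ y : FF N, y ≠ 0 ∧
      arithmeticRingAut (modularFunctionFieldFull N) s (swB f) * f ^ q = y ^ m := by
  subst hN
  exact kummerSwapBar M q m hq hqM haux hm hqm A hA s hs swB hBα hBβ f hf hdiv a b ha hb h1 h2

end To

/-! ### FROB-AL -/

section Main

variable {q M' : ℕ} [NeZero M'] [NeZero q] [NeZero (q * M')]

/-- **FROB-AL on a generator**: `φ • w_q x + q • x = 0` for `x ∈ splitSetQ`. -/
theorem frob_wL_add_of_splitGen (m : ℕ) (hq : q.Prime) (hqM : ¬ q ∣ M')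
    (haux : Fermat.Agent.S35.G.HasAux M' q) (hm : 0 < m) (hqm : ¬ q ∣ m)
    (A : ValuationSubring Kbar) (hA : A.LiesOverPrime q) (φ : GQ) (hφ : A.IsFrobeniusAt φ q)
    (x : JZero (q * M')) (f : FF (q * M')) (hf : IsKummerGen (q * M') m f x)
    (hs : SplitGenQ m q M' A f) :
    φ • wL q M' hq hqM x + q • x = 0 := by
  obtain ⟨hf0, D, rfl, hD⟩ := hf
  obtain ⟨⟨a, ha, h1⟩, ⟨b, hb, h2⟩⟩ := splitGenQ_roots818 hq hA M' m hm hs
  have hdiv : ∀ v : Place Kbar (FF (q * M')), (m : ℤ) ∣ v.ord f := fun v => by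
    rw [hD v]
    exact Dvd.intro _ rfl
  obtain ⟨y, hy, hrel⟩ := kummerSwapTo M' q (q * M') m (Nat.mul_comm M' q) hq hqM haux hm hqm
    A hA φ hφ ((swapL q M' hq hqM : FF (q * M') →ₐ[Kbar] FF (q * M')) : FF (q * M') →+* FF (q * M'))
    (fun a => swapL_alphaTo hq hqM a) (fun a => swapL_betaTo hq hqM a) f hf0 hdiv a b ha hb h1 h2
  obtain ⟨D', hD', hD'ord⟩ := wL_mk_of_kummer hq hqM (m := (m : ℤ)) D hf0
    (fun w => (hD w).symm)
  rw [hD']
  exact smul_add_nsmul_eq_zero_of_kummer818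
    (arithmeticGalois (modularFunctionFieldFull (q * M')) φ) m q hm.ne' D D' f
    (swapL q M' hq hqM f) hf0 (swapL_ne_zero hq hqM hf0) hD (fun v => (hD'ord v).symm) y hy hrel

/-- **FROB-AL on the split part**: `φ • w_q x + q • x = 0` for `x ∈ splitPartQ`. -/
theorem frob_wL_add_of_mem_splitPartQ (m : ℕ) (hq : q.Prime) (hqM : ¬ q ∣ M')
    (haux : Fermat.Agent.S35.G.HasAux M' q) (hm : 0 < m) (hqm : ¬ q ∣ m)
    (A : ValuationSubring Kbar) (hA : A.LiesOverPrime q) (φ : GQ) (hφ : A.IsFrobeniusAt φ q)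
    (x : JZero (q * M')) (hx : x ∈ splitPartQ m q M' A) :
    φ • wL q M' hq hqM x + q • x = 0 := by
  refine AddSubgroup.closure_induction
    (p := fun x _ => φ • wL q M' hq hqM x + q • x = 0) ?_ ?_ ?_ ?_ hx
  · rintro x ⟨f, hf, hs⟩
    exact frob_wL_add_of_splitGen m hq hqM haux hm hqm A hA φ hφ x f hf hs
  · rw [map_zero, smul_zero (A := JZero (q * M')) φ, nsmul_zero, add_zero]
  · intro x y _ _ hx hy
    rw [map_add, smul_add, nsmul_add, add_add_add_comm, hx, hy, add_zero]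
  · intro x _ hx
    rw [map_neg, smul_neg, neg_nsmul, ← neg_add, hx, neg_zero]

/-- **FROB-AL**: `φ • x = q • (- w_q x)` for `x ∈ splitPartQ`. -/
theorem frob_eq_of_mem_splitPartQ (m : ℕ) (hq : q.Prime) (hqM : ¬ q ∣ M')
    (haux : Fermat.Agent.S35.G.HasAux M' q) (hm : 0 < m) (hqm : ¬ q ∣ m)
    (A : ValuationSubring Kbar) (hA : A.LiesOverPrime q) (φ : GQ) (hφ : A.IsFrobeniusAt φ q)
    (x : JZero (q * M')) (hx : x ∈ splitPartQ m q M' A) :
    φ • x = q • (-(wL q M' hq hqM x)) := by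
  have h := frob_wL_add_of_mem_splitPartQ m hq hqM haux hm hqm A hA φ hφ x hx
  have h' := congrArg (wL q M' hq hqM) h
  rw [map_add, wL_smul, wL_wL, map_nsmul, map_zero] at h'
  rw [neg_nsmul]
  exact eq_neg_of_add_eq_zero_left h'

end Main

/-- **Leaf FROB-AL (Q2) at good levels, torsion order `p ^ n`** — VERBATIM. -/
theorem q2Good : Q2GoodStatement := by
  intro p n q M' _ _ _ h A hA
  have hq := h.q_prime
  have hqM := h.not_dvd
  have hm0 : 0 < p ^ n := pow_pos h.p_prime.pos n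
  have hqm : ¬ q ∣ p ^ n := fun hd =>
    h.q_ne_p ((Nat.prime_dvd_prime_iff_eq hq h.p_prime).1 (hq.dvd_of_dvd_pow hd))
  have haux : Fermat.Agent.S35.G.HasAux M' q := by
    refine ⟨fun h3 => ?_, fun h2 => absurd h2 h.q_ne_two⟩
    rcases h.good with h5 | ⟨-, h2⟩
    · omega
    · exact h2
  refine ⟨-((wL q M' hq hqM : JZero (q * M') ≃+ JZero (q * M')) :
      JZero (q * M') →+ JZero (q * M')), ?_, ?_, ?_⟩
  · intro σ x
    show -(wL q M' hq hqM (σ • x)) = σ • (-(wL q M' hq hqM x))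
    rw [wL_smul, smul_neg]
  · intro x _ _
    show -(wL q M' hq hqM (-(wL q M' hq hqM x))) = x
    rw [map_neg, neg_neg, wL_wL]
  · intro φ hφ x hx _
    exact frob_eq_of_mem_splitPartQ (p ^ n) hq hqM haux hm0 hqm A hA φ hφ x hx

end Fermat.Agent.Ribet.H818

end
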