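import Fermat.Agent.Ribet.H818.FrobAL
import Fermat.Agent.Ribet.H223.HeckeGaussRed
import Fermat.Agent.Ribet.H924.NormRedRel
import Fermat.Agent.S37.H818.ModularNorm

/-!
# WALL-q, leaf **FROB-AL (Q2) AT ALL LEVELS** (helper818) — S59 moonshot, cell (B1)/(A) interface

`H818.q2Good` / `H818.frob_eq_of_mem_splitPartQ` need the good-reduction input
`S35.G.HasAux M' q = (q = 3 → 2 ∣ M') ∧ (q = 2 → 3 ∣ M')`.  Here this hypothesis is REMOVED:

    q2All : q prime, q ∤ M', m > 0, q ∤ m, A over q  ⟹  Q2For m q M' A (splitPartQ m q M' A)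

(every prime `q`, `q = 2` included; every torsion order `m` prime to `q`, so every prime `p ≠ q`,
`p = 3` included; `p ∣ M'` allowed).

Proof = descent along `ι = α_r : F(qM') → F(q(M'r))` for the auxiliary prime `r` (`r = 2` if
`q = 3`, `r = 3` if `q = 2`): `ι` is the identity on `t`-expansions, so
* the reductions of `ι f` on `C∞`, `C₀` are `r₁`, `r₂(t^r)` (`H223.M6a`), again `m`-th powers;
* `ι` commutes with the swap `w_q` and with the Galois action;
* `kummerSwapTo` at the level `q(M'r)` gives `ι (σ_φ (w_q f) · f ^ q) = y' ^ m`;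
* `[F(q M' r) : F(q M')] = r + 1` is prime to `m`: norm + Bezout (`H924.eq_zpow_mul_pow_of_norm`)
  give `σ_φ (w_q f) · f ^ q = y ^ m` already at level `q M'`.
-/

set_option autoImplicit false
set_option linter.unusedSectionVars false
set_option linter.unusedVariables false
set_option linter.style.haveILetI false
set_option synthInstance.maxHeartbeats 400000
set_option maxHeartbeats 4000000

noncomputable section

namespace Fermat.Agent.Ribet.H818

open AlgebraicCurve ModularCurve HahnSeries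
open Fermat.Agent.S24 Fermat.Agent.A2.H528
open Fermat.Agent.Ribet Fermat.Agent.Ribet.Spec
open Fermat.Agent.Ribet.H884 Fermat.Agent.Ribet.H158.WallQ Fermat.Agent.Ribet.H801
open Fermat.Agent.S29.H801 (alphaTo betaTo coe_alphaTo coe_betaTo)

/-! ### The degeneracy map `α` at a renamed level -/

section ToLemmas

variable {M ℓ N : ℕ} [NeZero M] [NeZero ℓ] [NeZero N]

/-- A ring homomorphism out of `F_N`, `N = M ℓ`, is determined on `α F_M` and `β F_M`. -/
theorem ringHom_ext_alphaTo_betaTo818 (h : M * ℓ = N) (hℓ : ℓ.Prime) {T : Type*}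
    [DivisionRing T] (w w' : FF N →+* T)
    (hα : ∀ a : FF M, w (alphaTo Kbar M ℓ N h a) = w' (alphaTo Kbar M ℓ N h a))
    (hβ : ∀ a : FF M, w (betaTo Kbar M ℓ N h a) = w' (betaTo Kbar M ℓ N h a)) :
    ∀ x, w x = w' x := by
  subst h
  exact ringHom_ext_alpha_beta_gen (L := Kbar) (M := M) (p := ℓ) hℓ w w' hα hβ

/-- `w_N ∘ α = β ∘ w_M`. -/
theorem wF_alphaTo818 (h : M * ℓ = N) (u : FF M) :
    wF N (alphaTo Kbar M ℓ N h u) = betaTo Kbar M ℓ N h (wF M u) := by
  subst h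
  exact Fermat.Agent.A2.H612.wF_heckeAlphaBar _ _ u

/-- `α` commutes with the Galois action on the coefficients. -/
theorem arithmeticRingAut_alphaTo818 (h : M * ℓ = N) (σ : Kbar ≃ₐ[ℚ] Kbar) (x : FF M) :
    arithmeticRingAut (modularFunctionFieldFull N) σ (alphaTo Kbar M ℓ N h x) =
      alphaTo Kbar M ℓ N h (arithmeticRingAut (modularFunctionFieldFull M) σ x) := by
  apply Subtype.ext
  rw [coe_arithmeticRingAut_apply, coe_alphaTo, coe_alphaTo, coe_arithmeticRingAut_apply]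

/-- `[F_N : α F_M] = ℓ + 1`. -/
theorem finrankAlong_alphaTo818 (h : M * ℓ = N) (hℓ : ℓ.Prime) (hℓM : ¬ ℓ ∣ M) :
    finrankAlong Kbar (alphaTo Kbar M ℓ N h) = ℓ + 1 := by
  subst h
  exact Fermat.Agent.S37.H818.finrankAlong_heckeAlphaBar (L := Kbar) M ℓ hℓ hℓM

variable {A : ValuationSubring Kbar}

/-- `red∞ (α f) = red∞ f`. -/
theorem isRedInf_alphaTo818 (h : M * ℓ = N) {f : FF M} {r : LaurentSeries (kA A)}
    (hr : IsRedInf M A f r) : IsRedInf N A (alphaTo Kbar M ℓ N h f) r :=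
  Fermat.Agent.Ribet.H223.M6a.isRedInf_congr (coe_alphaTo Kbar h f) hr

/-- `red₀ (α f) = (red₀ f)(t^ℓ)`. -/
theorem isRedZero_alphaTo818 (h : M * ℓ = N) {f : FF M} {r : LaurentSeries (kA A)}
    (hr : IsRedZero M A f r) :
    IsRedZero N A (alphaTo Kbar M ℓ N h f) (qExpand (kA A) ℓ r) := by
  unfold IsRedZero at hr ⊢
  rw [wF_alphaTo818 h]
  exact Fermat.Agent.Ribet.H223.M6a.isRedInf_qExpand (coe_betaTo Kbar h _) hr

end ToLemmas

/-! ### Constant reductions -/

section Const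

variable {q : ℕ} {A : ValuationSubring Kbar}

/-- A function with an `m`-th power reduction on `C∞` is an `m`-th power times a function with a
CONSTANT reduction. -/
theorem exists_isRedInf_const818 (hq : q.Prime) (hA : A.LiesOverPrime q) (M' N m : ℕ) [NeZero N]
    (hMN : M' ∣ N) {f : FF N} {r : LaurentSeries (kA A)}
    (hred : IsRedInf N A f r) (hr : PPowSeries m M' r) :
    ∃ (g : FF N) (c : kA A), g ≠ 0 ∧ c ≠ 0 ∧
      IsRedInf N A (f * (g ^ m)⁻¹) (HahnSeries.C c) := by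
  obtain ⟨c, h, hc, hh, rfl⟩ := hr
  have hh' : (h : LaurentSeries (kA A)) ≠ 0 := fun h0 => hh (Subtype.ext h0)
  obtain ⟨g, hg0, hg⟩ := Fermat.Agent.Ribet.H573.exists_isRedInf_full hq.ne_zero hA M' N hMN
    (h : LaurentSeries (kA A)) h.2 hh'
  refine ⟨g, c, hg0, hc, ?_⟩
  have h2 := IsRedInf.mul hred (IsRedInf.inv (Fermat.Agent.Ribet.H573.isRedInf_pow hg m))
  rwa [mul_assoc, mul_inv_cancel₀ (pow_ne_zero m hh'), mul_one] at h2

/-- a nonzero constant is an `m`-th power series (at any level). -/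
theorem pPowSeries_C818 (m M'' : ℕ) {c : kA A} (hc : c ≠ 0) :
    PPowSeries m M'' (HahnSeries.C c : LaurentSeries (kA A)) :=
  ⟨c, 1, hc, one_ne_zero, by rw [OneMemClass.coe_one, one_pow, mul_one]⟩

end Const

/-! ### The descent -/

section Descent

variable {q M' : ℕ} [NeZero M'] [NeZero q] [NeZero (q * M')]

/-- The swap at level `q (M' r)` restricts to the swap at level `q M'`. -/
theorem swapL_alphaTo_aux818 (r : ℕ) [NeZero r] [NeZero (M' * r)] [NeZero (q * (M' * r))]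
    (hq : q.Prime) (hqM : ¬ q ∣ M') (hqMr : ¬ q ∣ M' * r) (f : FF (q * M')) :
    swapL q (M' * r) hq hqMr
        (alphaTo Kbar (q * M') r (q * (M' * r)) (Nat.mul_assoc q M' r) f) =
      alphaTo Kbar (q * M') r (q * (M' * r)) (Nat.mul_assoc q M' r) (swapL q M' hq hqM f) := by
  set ι : FF (q * M') →ₐ[Kbar] FF (q * (M' * r)) :=
    alphaTo Kbar (q * M') r (q * (M' * r)) (Nat.mul_assoc q M' r) with hι
  refine ringHom_ext_alphaTo_betaTo818 (Nat.mul_comm M' q) hq
    (((swapL q (M' * r) hq hqMr : FF (q * (M' * r)) →ₐ[Kbar] FF (q * (M' * r))) :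
      FF (q * (M' * r)) →+* FF (q * (M' * r))).comp (ι : FF (q * M') →+* FF (q * (M' * r))))
    ((ι : FF (q * M') →+* FF (q * (M' * r))).comp
      ((swapL q M' hq hqM : FF (q * M') →ₐ[Kbar] FF (q * M')) : FF (q * M') →+* FF (q * M')))
    ?_ ?_ f
  · intro a
    show swapL q (M' * r) hq hqMr (ι (alphaTo Kbar M' q (q * M') (Nat.mul_comm M' q) a)) =
      ι (swapL q M' hq hqM (alphaTo Kbar M' q (q * M') (Nat.mul_comm M' q) a))
    have e1 : ι (alphaTo Kbar M' q (q * M') (Nat.mul_comm M' q) a) =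
        alphaTo Kbar (M' * r) q (q * (M' * r)) (Nat.mul_comm (M' * r) q)
          (alphaTo Kbar M' r (M' * r) rfl a) := by
      apply Subtype.ext
      rw [hι, coe_alphaTo, coe_alphaTo, coe_alphaTo, coe_alphaTo]
    rw [e1, swapL_alphaTo, swapL_alphaTo]
    apply Subtype.ext
    rw [hι, coe_alphaTo, coe_betaTo, coe_betaTo, coe_alphaTo]
  · intro a
    show swapL q (M' * r) hq hqMr (ι (betaTo Kbar M' q (q * M') (Nat.mul_comm M' q) a)) =
      ι (swapL q M' hq hqM (betaTo Kbar M' q (q * M') (Nat.mul_comm M' q) a))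
    have e1 : ι (betaTo Kbar M' q (q * M') (Nat.mul_comm M' q) a) =
        betaTo Kbar (M' * r) q (q * (M' * r)) (Nat.mul_comm (M' * r) q)
          (alphaTo Kbar M' r (M' * r) rfl a) := by
      apply Subtype.ext
      rw [hι, coe_alphaTo, coe_betaTo, coe_betaTo, coe_alphaTo]
    rw [e1, swapL_betaTo, swapL_betaTo]
    apply Subtype.ext
    rw [hι, coe_alphaTo, coe_alphaTo, coe_alphaTo, coe_alphaTo]

/-- **FROB-AL in Kummer form, by descent from the level `q (M' r)`**: `r` an auxiliary prime with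
`HasAux (M' r) q` and `r + 1` prime to `m`. -/
theorem kummerSwap_desc818 (m r : ℕ) (hq : q.Prime) (hqM : ¬ q ∣ M') (hr : r.Prime)
    (hrq : r ≠ q) (hrM : ¬ r ∣ M') (haux : Fermat.Agent.S35.G.HasAux (M' * r) q)
    (hcop : Nat.Coprime (r + 1) m) (hm : 0 < m) (hqm : ¬ q ∣ m)
    (A : ValuationSubring Kbar) (hA : A.LiesOverPrime q) (φ : GQ) (hφ : A.IsFrobeniusAt φ q)
    (f : FF (q * M')) (hf0 : f ≠ 0)
    (hdiv : ∀ v : Place Kbar (FF (q * M')), (m : ℤ) ∣ v.ord f)
    (hs : SplitGenQ m q M' A f) :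
    ∃ y : FF (q * M'), y ≠ 0 ∧
      arithmeticRingAut (modularFunctionFieldFull (q * M')) φ (swapL q M' hq hqM f) * f ^ q =
        y ^ m := by
  haveI : NeZero r := ⟨hr.ne_zero⟩
  haveI : NeZero (M' * r) := ⟨mul_ne_zero (NeZero.ne M') hr.ne_zero⟩
  haveI : NeZero (q * (M' * r)) := ⟨mul_ne_zero (NeZero.ne q) (NeZero.ne (M' * r))⟩
  have hqr : ¬ q ∣ r := fun hd => hrq ((Nat.prime_dvd_prime_iff_eq hq hr).1 hd).symm
  have hqMr : ¬ q ∣ M' * r := fun hd => (hq.dvd_mul.1 hd).elim hqM hqr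
  have hrN : ¬ r ∣ q * M' := fun hd =>
    (hr.dvd_mul.1 hd).elim (fun h' => hrq ((Nat.prime_dvd_prime_iff_eq hr hq).1 h')) hrM
  obtain ⟨r₁, r₂, h1, h2, hp1, hp2⟩ := hs
  set ι : FF (q * M') →ₐ[Kbar] FF (q * (M' * r)) :=
    alphaTo Kbar (q * M') r (q * (M' * r)) (Nat.mul_assoc q M' r) with hι
  have hιinj : Function.Injective ι := ι.toRingHom.injective
  -- constant reductions at level `q M'`
  obtain ⟨g₁, c₁, hg₁, hc₁, hred₁⟩ :=
    exists_isRedInf_const818 hq hA M' (q * M') m (dvd_mul_left M' q) h1 hp1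
  obtain ⟨g₂', c₂, hg₂', hc₂, hred₂'⟩ :=
    exists_isRedInf_const818 hq hA M' (q * M') m (dvd_mul_left M' q)
      (f := wF (q * M') f) h2 hp2
  set g₂ : FF (q * M') := wF (q * M') g₂' with hg₂def
  have hg₂ : g₂ ≠ 0 := by rw [hg₂def]; simpa using hg₂'
  have hred₂ : IsRedZero (q * M') A (f * (g₂ ^ m)⁻¹) (HahnSeries.C c₂) := by
    unfold IsRedZero
    rw [map_mul, map_inv₀, map_pow, hg₂def, wF_wF]
    exact hred₂'
  -- transfer to the level `q (M' r)`
  have hT₁ : IsRedInf (q * (M' * r)) A (ι (f * (g₁ ^ m)⁻¹)) (HahnSeries.C c₁) :=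
    isRedInf_alphaTo818 (Nat.mul_assoc q M' r) hred₁
  have hT₂ : IsRedZero (q * (M' * r)) A (ι (f * (g₂ ^ m)⁻¹)) (HahnSeries.C c₂) := by
    have := isRedZero_alphaTo818 (Nat.mul_assoc q M' r) hred₂
    rwa [ModularCurve.qExpand_C] at this
  obtain ⟨a, ha, hva⟩ := exists_root_inf818 hq hA (M' * r) (q * (M' * r)) m
    (dvd_mul_left (M' * r) q) hm hT₁ (pPowSeries_C818 m (M' * r) hc₁)
  obtain ⟨b, hb, hvb⟩ := exists_root_zero818 hq hA (M' * r) (q * (M' * r)) m
    (dvd_mul_left (M' * r) q) hm hT₂ (pPowSeries_C818 m (M' * r) hc₂)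
  have hιg₁ : ι g₁ ≠ 0 := (map_ne_zero_iff _ hιinj).2 hg₁
  have hιg₂ : ι g₂ ≠ 0 := (map_ne_zero_iff _ hιinj).2 hg₂
  have hιf : ι f ≠ 0 := (map_ne_zero_iff _ hιinj).2 hf0
  have ea : ι f * ((ι g₁ * a) ^ m)⁻¹ = ι (f * (g₁ ^ m)⁻¹) * (a ^ m)⁻¹ := by
    rw [map_mul, map_inv₀, map_pow, mul_pow, mul_inv]
    ring
  have eb : ι f * ((ι g₂ * b) ^ m)⁻¹ = ι (f * (g₂ ^ m)⁻¹) * (b ^ m)⁻¹ := by
    rw [map_mul, map_inv₀, map_pow, mul_pow, mul_inv]
    ring
  -- the algebra structure along `ι`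
  letI alg : Algebra (FF (q * M')) (FF (q * (M' * r))) := algebraAlong ι
  haveI : IsScalarTower Kbar (FF (q * M')) (FF (q * (M' * r))) := isScalarTower_along ι
  have hfr : Module.finrank (FF (q * M')) (FF (q * (M' * r))) = r + 1 :=
    finrankAlong_alphaTo818 (Nat.mul_assoc q M' r) hr hrN
  haveI : FiniteDimensional (FF (q * M')) (FF (q * (M' * r))) :=
    Module.finite_of_finrank_pos (by rw [hfr]; omega)
  haveI : Algebra.IsIntegral (FF (q * M')) (FF (q * (M' * r))) := Algebra.IsIntegral.of_finite _ _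
  -- divisibility of the orders of `ι f`
  have hdiv' : ∀ v : Place Kbar (FF (q * (M' * r))), (m : ℤ) ∣ v.ord (ι f) := by
    intro v
    have h1 : v.ord (ι f) =
        Place.ramificationIndex (F := FF (q * M')) v * (v.restrict (FF (q * M'))).ord f :=
      v.ord_restrict (F := FF (q * M')) f
    rw [h1]
    exact Dvd.dvd.mul_left (hdiv _) _
  -- the Kummer statement at the level `q (M' r)`
  obtain ⟨y', hy', hrel'⟩ := kummerSwapTo (M' * r) q (q * (M' * r)) m
    (Nat.mul_comm (M' * r) q) hq hqMr haux hm hqm A hA φ hφ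
    ((swapL q (M' * r) hq hqMr : FF (q * (M' * r)) →ₐ[Kbar] FF (q * (M' * r))) :
      FF (q * (M' * r)) →+* FF (q * (M' * r)))
    (fun a => swapL_alphaTo hq hqMr a) (fun a => swapL_betaTo hq hqMr a) (ι f) hιf hdiv'
    (ι g₁ * a) (ι g₂ * b) (mul_ne_zero hιg₁ ha) (mul_ne_zero hιg₂ hb)
    (by rw [ea]; exact hva) (by rw [eb]; exact hvb)
  -- back to the level `q M'`
  set z : FF (q * M') :=
    arithmeticRingAut (modularFunctionFieldFull (q * M')) φ (swapL q M' hq hqM f) * f ^ q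
    with hz
  have hz0 : z ≠ 0 :=
    mul_ne_zero ((map_ne_zero _).2 (swapL_ne_zero hq hqM hf0)) (pow_ne_zero _ hf0)
  have hιz : ι z = y' ^ m := by
    rw [hz, map_mul, map_pow, ← arithmeticRingAut_alphaTo818 (Nat.mul_assoc q M' r) φ,
      ← swapL_alphaTo_aux818 r hq hqM hqMr f]
    exact hrel'
  obtain ⟨s, t, hst⟩ : ∃ s t : ℤ, ((r + 1 : ℕ) : ℤ) * s + (m : ℤ) * t = 1 := by
    refine ⟨Nat.gcdA (r + 1) m, Nat.gcdB (r + 1) m, ?_⟩
    have := Nat.gcd_eq_gcd_ab (r + 1) m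
    rw [hcop] at this
    rw [← this]
    simp
  have e1 : algebraMap (FF (q * M')) (FF (q * (M' * r))) z =
      algebraMap (FF (q * M')) (FF (q * (M' * r))) 1 * y' ^ m := by
    rw [map_one, one_mul]
    exact hιz
  have key := Fermat.Agent.Ribet.H924.eq_zpow_mul_pow_of_norm m hz0 e1 s t
    (by rw [hfr]; exact hst)
  rw [one_pow, one_zpow, one_mul] at key
  refine ⟨Algebra.norm (FF (q * M')) y' ^ s * z ^ t, ?_, key⟩
  intro h0
  rw [h0, zero_pow hm.ne'] at key
  exact hz0 key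

end Descent

/-! ### FROB-AL at all levels -/

section Main

variable {q M' : ℕ} [NeZero M'] [NeZero q] [NeZero (q * M')]

/-- **FROB-AL on a generator, by descent.** -/
theorem frob_wL_add_of_splitGen_desc818 (m r : ℕ) (hq : q.Prime) (hqM : ¬ q ∣ M')
    (hr : r.Prime) (hrq : r ≠ q) (hrM : ¬ r ∣ M') (haux : Fermat.Agent.S35.G.HasAux (M' * r) q)
    (hcop : Nat.Coprime (r + 1) m) (hm : 0 < m) (hqm : ¬ q ∣ m)
    (A : ValuationSubring Kbar) (hA : A.LiesOverPrime q) (φ : GQ) (hφ : A.IsFrobeniusAt φ q)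
    (x : JZero (q * M')) (f : FF (q * M')) (hf : IsKummerGen (q * M') m f x)
    (hs : SplitGenQ m q M' A f) :
    φ • wL q M' hq hqM x + q • x = 0 := by
  obtain ⟨hf0, D, rfl, hD⟩ := hf
  have hdiv : ∀ v : Place Kbar (FF (q * M')), (m : ℤ) ∣ v.ord f := fun v => by
    rw [hD v]
    exact Dvd.intro _ rfl
  obtain ⟨y, hy, hrel⟩ := kummerSwap_desc818 m r hq hqM hr hrq hrM haux hcop hm hqm A hA φ hφ
    f hf0 hdiv hs
  obtain ⟨D', hD', hD'ord⟩ := wL_mk_of_kummer hq hqM (m := (m : ℤ)) D hf0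
    (fun w => (hD w).symm)
  rw [hD']
  exact smul_add_nsmul_eq_zero_of_kummer818
    (arithmeticGalois (modularFunctionFieldFull (q * M')) φ) m q hm.ne' D D' f
    (swapL q M' hq hqM f) hf0 (swapL_ne_zero hq hqM hf0) hD (fun v => (hD'ord v).symm) y hy hrel

/-- **FROB-AL on a generator, ALL levels** (no `HasAux`). -/
theorem frob_wL_add_of_splitGen_all818 (m : ℕ) (hq : q.Prime) (hqM : ¬ q ∣ M')
    (hm : 0 < m) (hqm : ¬ q ∣ m)
    (A : ValuationSubring Kbar) (hA : A.LiesOverPrime q) (φ : GQ) (hφ : A.IsFrobeniusAt φ q)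
    (x : JZero (q * M')) (f : FF (q * M')) (hf : IsKummerGen (q * M') m f x)
    (hs : SplitGenQ m q M' A f) :
    φ • wL q M' hq hqM x + q • x = 0 := by
  by_cases haux : Fermat.Agent.S35.G.HasAux M' q
  · exact frob_wL_add_of_splitGen m hq hqM haux hm hqm A hA φ hφ x f hf hs
  · -- `q = 3`, `M'` odd  or  `q = 2`, `3 ∤ M'`
    have hcases : (q = 3 ∧ ¬ 2 ∣ M') ∨ (q = 2 ∧ ¬ 3 ∣ M') := by
      by_contra hcon
      push Not at hcon
      exact haux ⟨fun h3 => hcon.1 h3, fun h2 => hcon.2 h2⟩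
    rcases hcases with ⟨h3, h2M⟩ | ⟨h2, h3M⟩
    · -- `r = 2`
      subst h3
      refine frob_wL_add_of_splitGen_desc818 m 2 hq hqM Nat.prime_two (by decide) h2M
        ⟨fun _ => Dvd.intro_left M' rfl, fun h => absurd h (by decide)⟩ ?_ hm hqm A hA φ hφ x f
        hf hs
      show Nat.Coprime 3 m
      exact (Nat.Prime.coprime_iff_not_dvd Nat.prime_three).2 hqm
    · -- `r = 3`
      subst h2
      refine frob_wL_add_of_splitGen_desc818 m 3 hq hqM Nat.prime_three (by decide) h3M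
        ⟨fun h => absurd h (by decide), fun _ => Dvd.intro_left M' rfl⟩ ?_ hm hqm A hA φ hφ x f
        hf hs
      show Nat.Coprime 4 m
      have h2m : Nat.Coprime 2 m := (Nat.Prime.coprime_iff_not_dvd Nat.prime_two).2 hqm
      have : Nat.Coprime (2 ^ 2) m := Nat.Coprime.pow_left 2 h2m
      simpa using this

/-- **FROB-AL on the split part, ALL levels**: `φ • w_q x + q • x = 0` for `x ∈ splitPartQ`. -/
theorem frob_wL_add_of_mem_splitPartQ_all818 (m : ℕ) (hq : q.Prime) (hqM : ¬ q ∣ M')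
    (hm : 0 < m) (hqm : ¬ q ∣ m)
    (A : ValuationSubring Kbar) (hA : A.LiesOverPrime q) (φ : GQ) (hφ : A.IsFrobeniusAt φ q)
    (x : JZero (q * M')) (hx : x ∈ splitPartQ m q M' A) :
    φ • wL q M' hq hqM x + q • x = 0 := by
  refine AddSubgroup.closure_induction
    (p := fun x _ => φ • wL q M' hq hqM x + q • x = 0) ?_ ?_ ?_ ?_ hx
  · rintro x ⟨f, hf, hs⟩
    exact frob_wL_add_of_splitGen_all818 m hq hqM hm hqm A hA φ hφ x f hf hs
  · rw [map_zero, smul_zero (A := JZero (q * M')) φ, nsmul_zero, add_zero]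
  · intro x y _ _ hx hy
    rw [map_add, smul_add, nsmul_add, add_add_add_comm, hx, hy, add_zero]
  · intro x _ hx
    rw [map_neg, smul_neg, neg_nsmul, ← neg_add, hx, neg_zero]

/-- **FROB-AL, ALL levels**: `φ • x = q • (- w_q x)` for `x ∈ splitPartQ`. -/
theorem frob_eq_of_mem_splitPartQ_all818 (m : ℕ) (hq : q.Prime) (hqM : ¬ q ∣ M')
    (hm : 0 < m) (hqm : ¬ q ∣ m)
    (A : ValuationSubring Kbar) (hA : A.LiesOverPrime q) (φ : GQ) (hφ : A.IsFrobeniusAt φ q)
    (x : JZero (q * M')) (hx : x ∈ splitPartQ m q M' A) :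
    φ • x = q • (-(wL q M' hq hqM x)) := by
  have h := frob_wL_add_of_mem_splitPartQ_all818 m hq hqM hm hqm A hA φ hφ x hx
  have h' := congrArg (wL q M' hq hqM) h
  rw [map_add, wL_smul, wL_wL, map_nsmul, map_zero] at h'
  rw [neg_nsmul]
  exact eq_neg_of_add_eq_zero_left h'

end Main

/-- **(Q2) FROB-AL AT ALL LEVELS**: every prime `q` (`q = 2` included), every level `M'` prime to
`q` (no auxiliary prime), every torsion order `m > 0` prime to `q`. -/
def Q2AllStatement : Prop :=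
  ∀ (m q M' : ℕ) [NeZero M'] [NeZero q] [NeZero (q * M')], q.Prime → ¬ q ∣ M' → 0 < m →
    ¬ q ∣ m → ∀ A : ValuationSubring Kbar, A.LiesOverPrime q →
      Q2For m q M' A (splitPartQ m q M' A)

/-- **Leaf FROB-AL (Q2) at ALL levels** — UNCONDITIONAL. -/
theorem q2All : Q2AllStatement := by
  intro m q M' _ _ _ hq hqM hm0 hqm A hA
  refine ⟨-((wL q M' hq hqM : JZero (q * M') ≃+ JZero (q * M')) :
      JZero (q * M') →+ JZero (q * M')), ?_, ?_, ?_⟩
  · intro σ x
    show -(wL q M' hq hqM (σ • x)) = σ • (-(wL q M' hq hqM x))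
    rw [wL_smul, smul_neg]
  · intro x _ _
    show -(wL q M' hq hqM (-(wL q M' hq hqM x))) = x
    rw [map_neg, neg_neg, wL_wL]
  · intro φ hφ x hx _
    exact frob_eq_of_mem_splitPartQ_all818 m hq hqM hm0 hqm A hA φ hφ x hx

/-- `q2All` in the shape of the W-form targets: primes `p ≠ q`, torsion order `p ^ n`. -/
theorem q2All_prime_pow (p n q M' : ℕ) [NeZero M'] [NeZero q] [NeZero (q * M')]
    (hp : p.Prime) (hq : q.Prime) (hqp : q ≠ p) (hqM : ¬ q ∣ M')
    (A : ValuationSubring Kbar) (hA : A.LiesOverPrime q) :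
    Q2For (p ^ n) q M' A (splitPartQ (p ^ n) q M' A) :=
  q2All (p ^ n) q M' hq hqM (pow_pos hp.pos n)
    (fun hd => hqp ((Nat.prime_dvd_prime_iff_eq hq hp).1 (hq.dvd_of_dvd_pow hd))) A hA

end Fermat.Agent.Ribet.H818

end
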