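import Fermat.Agent.Ribet.H818.FrobAL
import Fermat.Agent.Ribet.H667.FrobALSpec

/-!
# Row RIBET, WALL-q, leaf FROB-AL: the DESCENT Prop of the interface of helper667 (helper818)

`kummerSwapGood : H667.FrobAL.KummerSwapGoodStatement` (VERBATIM, UNCONDITIONAL), with constant
`c = 1`; also the generic form `kummerSwapAt818` (any modulus `m > 0` prime to `q`, good level).
(The official leaf `H158.WallQ.Q2GoodStatement` is `H818.q2Good`, `Ribet/H818/FrobAL.lean`.)
-/

set_option autoImplicit false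
set_option linter.unusedSectionVars false
set_option linter.unusedVariables false
set_option linter.style.haveILetI false
set_option synthInstance.maxHeartbeats 400000
set_option maxHeartbeats 1000000

noncomputable section

namespace Fermat.Agent.Ribet.H818

open AlgebraicCurve ModularCurve HahnSeries
open Fermat.Agent.S24 Fermat.Agent.A2.H528
open Fermat.Agent.Ribet Fermat.Agent.Ribet.Spec
open Fermat.Agent.Ribet.H884 Fermat.Agent.Ribet.H158.WallQ Fermat.Agent.Ribet.H801

/-- **FROB-AL in Kummer form** (`H667.FrobAL.KummerSwapAt`), any modulus `m > 0` prime to `q`. -/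
theorem kummerSwapAt818 (m q M' : ℕ) [NeZero M'] [NeZero q] [NeZero (q * M')] (hq : q.Prime)
    (hqM : ¬ q ∣ M') (haux : Fermat.Agent.S35.G.HasAux M' q) (hm : 0 < m) (hqm : ¬ q ∣ m)
    (A : ValuationSubring Kbar) (hA : A.LiesOverPrime q) :
    Fermat.Agent.Ribet.H667.FrobAL.KummerSwapAt m q M' hq hqM A := by
  intro s hs f x hf hsplit
  obtain ⟨hf0, D, -, hD⟩ := hf
  obtain ⟨⟨a, ha, h1⟩, ⟨b, hb, h2⟩⟩ := splitGenQ_roots818 hq hA M' m hm hsplit
  have hdiv : ∀ v : Place Kbar (FF (q * M')), (m : ℤ) ∣ v.ord f := fun v => by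
    rw [hD v]
    exact Dvd.intro _ rfl
  obtain ⟨y, hy, hrel⟩ := kummerSwapTo M' q (q * M') m (Nat.mul_comm M' q) hq hqM haux hm hqm
    A hA s hs ((swapL q M' hq hqM : FF (q * M') →ₐ[Kbar] FF (q * M')) : FF (q * M') →+* FF (q * M'))
    (fun a => swapL_alphaTo hq hqM a) (fun a => swapL_betaTo hq hqM a) f hf0 hdiv a b ha hb h1 h2
  refine ⟨1, y, one_ne_zero, hy, ?_⟩
  rw [map_one, one_mul]
  exact hrel

/-- **DESCENT** (`H667.FrobAL.KummerSwapGoodStatement`) — VERBATIM. -/
theorem kummerSwapGood : Fermat.Agent.Ribet.H667.FrobAL.KummerSwapGoodStatement := by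
  intro p n q M' _ _ _ h A hA
  have hq := h.q_prime
  have hqm : ¬ q ∣ p ^ n := fun hd =>
    h.q_ne_p ((Nat.prime_dvd_prime_iff_eq hq h.p_prime).1 (hq.dvd_of_dvd_pow hd))
  have haux : Fermat.Agent.S35.G.HasAux M' q := by
    refine ⟨fun h3 => ?_, fun h2 => absurd h2 h.q_ne_two⟩
    rcases h.good with h5 | ⟨-, h2⟩
    · omega
    · exact h2
  exact kummerSwapAt818 (p ^ n) q M' hq h.not_dvd haux (pow_pos h.p_prime.pos n) hqm A hA

end Fermat.Agent.Ribet.H818

end
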