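import Fermat.Agent.S35.H433.PhiAsm

/-!
# Row RIBET, WALL-q — local factorisation for a component-SWAPPING Frobenius (helper818)

Mirror of `Fermat/Agent/S35/H433/PhiAsm.lean` (helper433) for a semilinear automorphism `φ` of the
function field `F` which preserves a chart `B` of a semistable model, acts on the constants as the
`Q`-power map modulo `w`, fixes the crossing points, and **SWAPS** the two components of the
special fibre.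

Model case (Mazur's principle at `q ‖ N`): `φ = σ ∘ w_q`, `σ` a Frobenius lift at `q`, `w_q` the
Atkin–Lehner involution, `Q = q`.  On the supersingular points `w_q` IS the Frobenius, so `φ`
fixes every crossing point, and it swaps the branches.  Consequence: on the toric part of
`J₀(N)[m]` one has `σ ∘ w_q = -q`, i.e. `Frob = -q · w_q`.

`localFactor_swap_of_pureAt` : `u ≡ c₁` on `p₁`, `u ≡ c₂` on `p₂` (unit constants), purity data for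
`u` at `φ⁻¹ n` and at `n`  ⟹  `LocalFactor B c m (φ u · u ^ Q / (c₁ c₂) ^ Q) n`.

Together with the leaf GLUE of the A2 wall this gives `φ u · u ^ Q = h ^ m` (`SwapToric.lean`).
-/

set_option autoImplicit false

namespace Fermat.Agent.Ribet.H818

open Fermat.Agent.A2 Fermat.Agent.A2.Alg Fermat.Agent.S35.H433

variable {R F : Type*} [CommRing R] [Field F] [Algebra R F]

/-- The standing hypotheses on a component-swapping `φ`, on one chart. -/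
structure SwapCtx (w : R) (B : Subalgebra R F) (c : SSChart w B) (φ : F ≃+* F) (Q : ℕ) :
    Prop where
  /-- `φ` maps the chart into itself -/
  mapB : ∀ b : F, b ∈ B → φ b ∈ B
  /-- `φ⁻¹` maps the chart into itself -/
  mapB' : ∀ b : F, φ b ∈ B → b ∈ B
  /-- `φ` maps the second component onto the first -/
  map₁₂ : ∀ b : B, (⟨φ b, mapB b b.2⟩ : B) ∈ c.p₁ ↔ b ∈ c.p₂
  /-- `φ` maps the first component onto the second -/
  map₂₁ : ∀ b : B, (⟨φ b, mapB b b.2⟩ : B) ∈ c.p₂ ↔ b ∈ c.p₁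
  /-- `φ` is the `Q`-power map on constants modulo `w` -/
  frob : ∀ r : R, ∃ s : B, φ (algebraMap R F r) - algebraMap R F r ^ Q = algebraMap R F w * s

variable {w : R} {B : Subalgebra R F} {c : SSChart w B} {φ : F ≃+* F} {Q : ℕ}

/-- The restriction of `φ` to the chart. -/
def SwapCtx.hom (hφ : SwapCtx w B c φ Q) : B →+* B where
  toFun b := ⟨φ b, hφ.mapB b b.2⟩
  map_one' := Subtype.ext (by simp)
  map_mul' a b := Subtype.ext (by simp)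
  map_zero' := Subtype.ext (by simp)
  map_add' a b := Subtype.ext (by simp)

@[simp] theorem SwapCtx.coe_hom (hφ : SwapCtx w B c φ Q) (b : B) :
    ((hφ.hom b : B) : F) = φ b := rfl

/-- Transport of `I B_{n'}` to `J B_n` along `φ`. -/
theorem SwapCtx.inLoc (hφ : SwapCtx w B c φ Q) {n n' I J : Ideal B}
    (hnn' : ∀ b : B, b ∉ n' → hφ.hom b ∉ n) (hIJ : ∀ b : B, b ∈ I → hφ.hom b ∈ J) {u : F}
    (h : InLoc B n' I u) : InLoc B n J (φ u) := by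
  obtain ⟨a, b, ha, hb, hab⟩ := h
  refine ⟨hφ.hom a, hφ.hom b, hIJ a ha, hnn' b hb, ?_⟩
  rw [hφ.coe_hom, hφ.coe_hom, ← map_mul, hab]

/-- Transport of units of `B_{n'}` to units of `B_n` along `φ`. -/
theorem SwapCtx.locUnit (hφ : SwapCtx w B c φ Q) {n n' : Ideal B}
    (hnn' : ∀ b : B, b ∉ n' → hφ.hom b ∉ n) {u : F} (h : LocUnit B n' u) :
    LocUnit B n (φ u) := by
  obtain ⟨a, b, ha, hb, hab⟩ := h
  refine ⟨hφ.hom a, hφ.hom b, hnn' a ha, hnn' b hb, ?_⟩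
  rw [hφ.coe_hom, hφ.coe_hom, ← map_mul, hab]

theorem SwapCtx.hom_surjective (hφ : SwapCtx w B c φ Q) : Function.Surjective hφ.hom := by
  intro b
  refine ⟨⟨φ.symm b, hφ.mapB' _ (by rw [φ.apply_symm_apply]; exact b.2)⟩, ?_⟩
  apply Subtype.ext
  rw [hφ.coe_hom]
  exact φ.apply_symm_apply _

theorem SwapCtx.not_mem_comap (hφ : SwapCtx w B c φ Q) (n : Ideal B) :
    ∀ b : B, b ∉ n.comap hφ.hom → hφ.hom b ∉ n := fun _ hb => hb

/-- `w ∈ φ⁻¹ n` for a closed point `n` of the special fibre. -/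
theorem SwapCtx.w_mem_comap (hφ : SwapCtx w B c φ Q) (hQ : 0 < Q) {n : Ideal B}
    (hwn : algebraMap R B w ∈ n) : algebraMap R B w ∈ n.comap hφ.hom := by
  obtain ⟨s, hs⟩ := hφ.frob w
  have h1 : hφ.hom (algebraMap R B w) = algebraMap R B w ^ Q + algebraMap R B w * s := by
    apply Subtype.ext
    push_cast
    rw [hφ.coe_hom]
    have e1 : ((algebraMap R B w : B) : F) = algebraMap R F w := rfl
    rw [e1]
    linear_combination hs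
  rw [Ideal.mem_comap, h1]
  exact n.add_mem (n.pow_mem_of_mem hwn Q hQ) (n.mul_mem_right _ hwn)

/-- `φ` fixes `n` as a set. -/
theorem SwapCtx.mem_of_hom_mem (hφ : SwapCtx w B c φ Q) {n : Ideal B} (hn : n.IsMaximal)
    (hfix : ∀ b : B, b ∈ n → hφ.hom b ∈ n) (b : B) (h : hφ.hom b ∈ n) : b ∈ n := by
  have hle : n ≤ n.comap hφ.hom := fun x hx => hfix x hx
  have hne : n.comap hφ.hom ≠ ⊤ := (Ideal.comap_isPrime hφ.hom n).ne_top
  have := hn.eq_of_le hne hle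
  rw [this]
  exact h

/-- **Lemma EV.**  At a fixed closed point with residue field `R / w`, `φ b ≡ b ^ Q`. -/
theorem SwapCtx.hom_sub_pow_mem (hφ : SwapCtx w B c φ Q) {n : Ideal B}
    (hwn : algebraMap R B w ∈ n) (hk : ∀ b : B, ∃ r : R, b - algebraMap R B r ∈ n)
    (hfix : ∀ b : B, b ∈ n → hφ.hom b ∈ n) (a : B) : hφ.hom a - a ^ Q ∈ n := by
  obtain ⟨r, hr⟩ := hk a
  obtain ⟨s, hs⟩ := hφ.frob r
  have h1 : hφ.hom (algebraMap R B r) - algebraMap R B r ^ Q = algebraMap R B w * s := by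
    apply Subtype.ext
    push_cast
    rw [hφ.coe_hom]
    exact hs
  have h2 : a ^ Q - algebraMap R B r ^ Q ∈ n := by
    obtain ⟨t, ht⟩ := sub_dvd_pow_sub_pow a (algebraMap R B r) Q
    rw [ht]
    exact n.mul_mem_right _ hr
  have e : hφ.hom a - a ^ Q = hφ.hom (a - algebraMap R B r) + algebraMap R B w * s
      - (a ^ Q - algebraMap R B r ^ Q) := by
    rw [← h1, map_sub]
    ring
  rw [e]
  exact n.sub_mem (n.add_mem (hfix _ hr) (n.mul_mem_right _ hwn)) h2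

/-- At a fixed closed point, `φ ρ ≡ ρ ^ Q mod n B_n` for every `ρ ∈ B_n`. -/
theorem SwapCtx.cong_pow_of_fixed (hφ : SwapCtx w B c φ Q) {n : Ideal B} (hn : n.IsMaximal)
    (hwn : algebraMap R B w ∈ n) (hk : ∀ b : B, ∃ r : R, b - algebraMap R B r ∈ n)
    (hfix : ∀ b : B, b ∈ n → hφ.hom b ∈ n) {ρ : F} (hρ : InLoc B n ⊤ ρ) :
    InLoc B n n (φ ρ - ρ ^ Q) := by
  have hnp := hn.isPrime
  obtain ⟨a, b, -, hb, hab⟩ := hρ
  have hb0 : (b : F) ≠ 0 := coe_ne_zero_of_not_mem hb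
  have hφb : hφ.hom b ∉ n := fun h => hb (hφ.mem_of_hom_mem hn hfix b h)
  have hφb0 : φ (b : F) ≠ 0 := (map_ne_zero φ).2 hb0
  refine ⟨hφ.hom a * b ^ Q - a ^ Q * hφ.hom b, hφ.hom b * b ^ Q, ?_, ?_, ?_⟩
  · have e : hφ.hom a * b ^ Q - a ^ Q * hφ.hom b
        = (hφ.hom a - a ^ Q) * b ^ Q - a ^ Q * (hφ.hom b - b ^ Q) := by ring
    rw [e]
    exact n.sub_mem (n.mul_mem_right _ (hφ.hom_sub_pow_mem hwn hk hfix a))
      (n.mul_mem_left _ (hφ.hom_sub_pow_mem hwn hk hfix b))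
  · intro h
    rcases hnp.mem_or_mem h with h | h
    · exact hφb h
    · exact hb (hnp.mem_of_pow_mem _ h)
  · have hρe : ρ = (a : F) / b := by
      field_simp
      exact hab
    push_cast
    rw [hφ.coe_hom, hφ.coe_hom, hρe, map_div₀, div_pow]
    field_simp

/-- **Step 2 (swap).**  `u ≡ c₀` on `p'`, `φ` maps `p'` onto `p`  ⟹  `φ u ≡ c₀ ^ Q` on `p`. -/
theorem SwapCtx.cong_const (hφ : SwapCtx w B c φ Q) {p p' : Ideal B} [hp : p.IsPrime]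
    (hwp : algebraMap R B w ∈ p) (hmap : ∀ b : B, hφ.hom b ∈ p ↔ b ∈ p') {u : F} {c₀ : R}
    (hcong : InLoc B p' p' (u - algebraMap R F c₀)) :
    InLoc B p p (φ u - algebraMap R F c₀ ^ Q) := by
  have hnn : ∀ b : B, b ∉ p' → hφ.hom b ∉ p := fun b hb h' => hb ((hmap b).1 h')
  have hII : ∀ b : B, b ∈ p' → hφ.hom b ∈ p := fun b hb => (hmap b).2 hb
  have h1 : InLoc B p p (φ u - φ (algebraMap R F c₀)) := by
    rw [← map_sub]
    exact hφ.inLoc hnn hII hcong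
  have h2 : InLoc B p p (φ (algebraMap R F c₀) - algebraMap R F c₀ ^ Q) := by
    obtain ⟨s, hs⟩ := hφ.frob c₀
    rw [hs]
    have : algebraMap R F w * (s : F) = ((algebraMap R B w * s : B) : F) := rfl
    rw [this]
    exact inLoc_coe (p.mul_mem_right _ hwp)
  exact cong_trans h1 h2

/-- **Step 2' (swap).**  `u ≡ c₁` on `p`, `u ≡ c₂` on `p'`, `φ` maps `p'` onto `p`  ⟹
`φ u · u ^ Q / (c₁ c₂) ^ Q ≡ 1` on `p`. -/
theorem SwapCtx.cong_one (hφ : SwapCtx w B c φ Q) {p p' : Ideal B} [hp : p.IsPrime]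
    (hwp : algebraMap R B w ∈ p) (hmap : ∀ b : B, hφ.hom b ∈ p ↔ b ∈ p') {u : F} {c₁ c₂ : R}
    (hc₁ : IsUnit c₁) (hc₂ : IsUnit c₂)
    (hu : InLoc B p p (u - algebraMap R F c₁)) (hu' : InLoc B p' p' (u - algebraMap R F c₂)) :
    InLoc B p p (φ u * u ^ Q * (algebraMap R F (c₁ * c₂) ^ Q)⁻¹ - 1) := by
  have hcu₁ : LocUnit B p (algebraMap R F c₁) := locUnit_const hc₁
  have hcu₂ : LocUnit B p (algebraMap R F c₂) := locUnit_const hc₂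
  have hcu : LocUnit B p (algebraMap R F (c₁ * c₂)) := locUnit_const (hc₁.mul hc₂)
  have huu : LocUnit B p u := locUnit_of_cong hcu₁ hu
  have h1 : InLoc B p p (φ u - algebraMap R F c₂ ^ Q) := hφ.cong_const hwp hmap hu'
  have h2 : InLoc B p p (u ^ Q - algebraMap R F c₁ ^ Q) :=
    cong_pow (locUnit_iff.1 huu).2.1 (locUnit_iff.1 hcu₁).2.1 hu Q
  have hφu : LocUnit B p (φ u) := locUnit_of_cong (locUnit_pow hcu₂ Q) h1
  have h3 : InLoc B p p (φ u * u ^ Q - algebraMap R F c₂ ^ Q * algebraMap R F c₁ ^ Q) :=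
    cong_mul (locUnit_iff.1 hφu).2.1 (locUnit_iff.1 (locUnit_pow hcu₁ Q)).2.1 h1 h2
  have hC : LocUnit B p (algebraMap R F (c₁ * c₂) ^ Q) := locUnit_pow hcu Q
  have hC0 : algebraMap R F (c₁ * c₂) ^ Q ≠ 0 := locUnit_ne_zero hC
  have e : φ u * u ^ Q * (algebraMap R F (c₁ * c₂) ^ Q)⁻¹ - 1
      = (φ u * u ^ Q - algebraMap R F c₂ ^ Q * algebraMap R F c₁ ^ Q)
        * (algebraMap R F (c₁ * c₂) ^ Q)⁻¹ := by
    have e1 : algebraMap R F c₂ ^ Q * algebraMap R F c₁ ^ Q = algebraMap R F (c₁ * c₂) ^ Q := by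
      rw [map_mul, mul_pow, mul_comm]
    rw [e1, sub_mul, mul_inv_cancel₀ hC0]
  rw [e]
  exact h3.mul' (locUnit_iff.1 hC).2.2

/-- **Step 4, one branch (no `φ`).**  `u ≡ c₀` on the branch `p ≤ n`, `d` a unit at `p`,
`u · d ^ m` a unit at `n`  ⟹  `d ≡ r` on `p` for a unit `r` of `B_n`. -/
theorem exists_unit_res {n p : Ideal B} (hn : n.IsMaximal) [hp : p.IsPrime] (hpn : p ≤ n)
    (hnorm : IsIntegrallyClosed (B ⧸ p)) {m : ℕ} (hm : 0 < m) {u d : F} {c₀ : R}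
    (hc : IsUnit c₀) (hcong : InLoc B p p (u - algebraMap R F c₀))
    (hd : LocUnit B p d) (hε : LocUnit B n (u * d ^ m)) :
    ∃ r : F, LocUnit B n r ∧ InLoc B p p (d - r) := by
  have hnp := hn.isPrime
  have hcn : LocUnit B n (algebraMap R F c₀) := locUnit_const hc
  have hcp : LocUnit B p (algebraMap R F c₀) := locUnit_const hc
  have huu : LocUnit B p u := locUnit_of_cong hcp hcong
  obtain ⟨hu0, hu1, hu2⟩ := locUnit_iff.1 huu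
  obtain ⟨hd0, hd1, hd2⟩ := locUnit_iff.1 hd
  obtain ⟨hε0, hε1, hε2⟩ := locUnit_iff.1 hε
  obtain ⟨hc0, hc1, hc2⟩ := locUnit_iff.1 hcn
  have hdm0 : d ^ m ≠ 0 := pow_ne_zero _ hd0
  -- `d ^ m ≡ ε c₀⁻¹` and `d⁻¹ ^ m ≡ c₀ ε⁻¹` on `p`
  have hinv : InLoc B p p (u⁻¹ - (algebraMap R F c₀)⁻¹) := cong_inv huu hcp hcong
  have h1 : InLoc B p p (d ^ m - (u * d ^ m) * (algebraMap R F c₀)⁻¹) := by
    have e : d ^ m - (u * d ^ m) * (algebraMap R F c₀)⁻¹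
        = (u * d ^ m) * (u⁻¹ - (algebraMap R F c₀)⁻¹) := by
      field_simp
    rw [e]
    exact (hε1.anti hpn).mul hinv
  have h2 : InLoc B p p (d⁻¹ ^ m - algebraMap R F c₀ * (u * d ^ m)⁻¹) := by
    have e : d⁻¹ ^ m - algebraMap R F c₀ * (u * d ^ m)⁻¹
        = (u - algebraMap R F c₀) * (u * d ^ m)⁻¹ := by
      rw [sub_mul, mul_inv, mul_inv_cancel_left₀ hu0, inv_pow]
    rw [e]
    exact hcong.mul' (hε2.anti hpn)
  obtain ⟨r, hr, hr'⟩ := exists_res_of_pow hpn hnorm hm hd1 (hε1.mul hc2) h1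
  obtain ⟨r', hr₂, hr₂'⟩ := exists_res_of_pow hpn hnorm hm hd2 (hc1.mul hε2) h2
  -- `r r' ≡ 1`, so `r` is a unit of `B_n`
  have h3 : InLoc B p p (r * r' - 1) := by
    have := cong_mul (hr.anti hpn) hd2 (cong_symm hr') (cong_symm hr₂')
    rwa [mul_inv_cancel₀ hd0] at this
  have h4 : InLoc B n n (r * r' - 1) := (InLoc.of_le ((hr.mul hr₂).sub (inLoc_one n)) h3).mono hpn
  have h5 : LocUnit B n (r * r') := locUnit_of_cong (locUnit_one n) h4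
  have hr0 : r ≠ 0 := left_ne_zero_of_mul (locUnit_ne_zero h5)
  have hrU : LocUnit B n r := by
    refine locUnit_iff.2 ⟨hr0, hr, ?_⟩
    have e : r⁻¹ = r' * (r * r')⁻¹ := by
      have hr'0 : r' ≠ 0 := right_ne_zero_of_mul (locUnit_ne_zero h5)
      field_simp
    rw [e]
    exact hr₂.mul (locUnit_iff.1 h5).2.2
  exact ⟨r, hrU, hr'⟩

/-- **Step 4/5, crossing point (swap).** -/
theorem SwapCtx.exists_eta_node (hφ : SwapCtx w B c φ Q) {n : Ideal B} (hn : n.IsMaximal)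
    (h1n : c.p₁ ≤ n) (h2n : c.p₂ ≤ n)
    (hwn : algebraMap R B w ∈ n) (hk : ∀ b : B, ∃ r : R, b - algebraMap R B r ∈ n)
    (hfix : ∀ b : B, b ∈ n → hφ.hom b ∈ n)
    (htr : ∀ b : B, b ∈ n → ∃ s : B, s ∉ n ∧ s * b ∈ c.p₁ ⊔ c.p₂)
    {m : ℕ} (hm : 0 < m) {u d : F} {c₁ c₂ : R} (hc₁ : IsUnit c₁) (hc₂ : IsUnit c₂)
    (hu₁ : InLoc B c.p₁ c.p₁ (u - algebraMap R F c₁))
    (hu₂ : InLoc B c.p₂ c.p₂ (u - algebraMap R F c₂))
    (hd₁ : LocUnit B c.p₁ d) (hd₂ : LocUnit B c.p₂ d) (hε : LocUnit B n (u * d ^ m)) :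
    ∃ η : F, InLoc B n ⊤ η ∧ InLoc B c.p₁ c.p₁ (η - (φ d * d ^ Q)⁻¹) ∧
      InLoc B c.p₂ c.p₂ (η - (φ d * d ^ Q)⁻¹) := by
  have hnp := hn.isPrime
  have hp₁ := c.prime₁
  have hp₂ := c.prime₂
  obtain ⟨r₁, hr₁, hr₁p⟩ := exists_unit_res hn h1n c.normal₁ hm hc₁ hu₁ hd₁ hε
  obtain ⟨r₂, hr₂, hr₂p⟩ := exists_unit_res hn h2n c.normal₂ hm hc₂ hu₂ hd₂ hε
  have hnn : ∀ b : B, b ∉ n → hφ.hom b ∉ n := fun b hb h => hb (hφ.mem_of_hom_mem hn hfix b h)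
  have h21 : ∀ b : B, b ∉ c.p₂ → hφ.hom b ∉ c.p₁ := fun b hb h => hb ((hφ.map₁₂ b).1 h)
  have h12 : ∀ b : B, b ∉ c.p₁ → hφ.hom b ∉ c.p₂ := fun b hb h => hb ((hφ.map₂₁ b).1 h)
  have hI21 : ∀ b : B, b ∈ c.p₂ → hφ.hom b ∈ c.p₁ := fun b hb => (hφ.map₁₂ b).2 hb
  have hI12 : ∀ b : B, b ∈ c.p₁ → hφ.hom b ∈ c.p₂ := fun b hb => (hφ.map₂₁ b).2 hb
  -- the two residues
  have hθ₁ : LocUnit B n (φ r₂ * r₁ ^ Q) := locUnit_mul (hφ.locUnit hnn hr₂) (locUnit_pow hr₁ Q)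
  have hθ₂ : LocUnit B n (φ r₁ * r₂ ^ Q) := locUnit_mul (hφ.locUnit hnn hr₁) (locUnit_pow hr₂ Q)
  have hδ₁ : LocUnit B c.p₁ (φ d * d ^ Q) :=
    locUnit_mul (hφ.locUnit h21 hd₂) (locUnit_pow hd₁ Q)
  have hδ₂ : LocUnit B c.p₂ (φ d * d ^ Q) :=
    locUnit_mul (hφ.locUnit h12 hd₁) (locUnit_pow hd₂ Q)
  -- `δ ≡ θ_i` on `p_i`
  have hδθ₁ : InLoc B c.p₁ c.p₁ (φ d * d ^ Q - φ r₂ * r₁ ^ Q) := by
    have a1 : InLoc B c.p₁ c.p₁ (φ d - φ r₂) := by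
      rw [← map_sub]
      exact hφ.inLoc h21 hI21 hr₂p
    have a2 : InLoc B c.p₁ c.p₁ (d ^ Q - r₁ ^ Q) :=
      cong_pow (locUnit_iff.1 hd₁).2.1 ((locUnit_iff.1 hr₁).2.1.anti h1n) hr₁p Q
    exact cong_mul (locUnit_iff.1 (hφ.locUnit h21 hd₂)).2.1
      ((locUnit_iff.1 (locUnit_pow hr₁ Q)).2.1.anti h1n) a1 a2
  have hδθ₂ : InLoc B c.p₂ c.p₂ (φ d * d ^ Q - φ r₁ * r₂ ^ Q) := by
    have a1 : InLoc B c.p₂ c.p₂ (φ d - φ r₁) := by
      rw [← map_sub]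
      exact hφ.inLoc h12 hI12 hr₁p
    have a2 : InLoc B c.p₂ c.p₂ (d ^ Q - r₂ ^ Q) :=
      cong_pow (locUnit_iff.1 hd₂).2.1 ((locUnit_iff.1 hr₂).2.1.anti h2n) hr₂p Q
    exact cong_mul (locUnit_iff.1 (hφ.locUnit h12 hd₁)).2.1
      ((locUnit_iff.1 (locUnit_pow hr₂ Q)).2.1.anti h2n) a1 a2
  -- the residues agree at `n`
  have e₀ : InLoc B n n (φ r₂ * r₁ ^ Q - φ r₁ * r₂ ^ Q) := by
    have b1 := hφ.cong_pow_of_fixed hn hwn hk hfix (locUnit_iff.1 hr₁).2.1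
    have b2 := hφ.cong_pow_of_fixed hn hwn hk hfix (locUnit_iff.1 hr₂).2.1
    have e : φ r₂ * r₁ ^ Q - φ r₁ * r₂ ^ Q
        = (φ r₂ - r₂ ^ Q) * r₁ ^ Q - (φ r₁ - r₁ ^ Q) * r₂ ^ Q := by ring
    rw [e]
    exact (b2.mul' (locUnit_iff.1 (locUnit_pow hr₁ Q)).2.1).sub
      (b1.mul' (locUnit_iff.1 (locUnit_pow hr₂ Q)).2.1)
  have e₃ : InLoc B n n ((φ r₂ * r₁ ^ Q)⁻¹ - (φ r₁ * r₂ ^ Q)⁻¹) := cong_inv hθ₁ hθ₂ e₀
  have e₄ : InLoc B n (c.p₁ ⊔ c.p₂) ((φ r₂ * r₁ ^ Q)⁻¹ - (φ r₁ * r₂ ^ Q)⁻¹) := by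
    obtain ⟨a, b, ha, hb, hab⟩ := e₃
    obtain ⟨s, hs, hsa⟩ := htr a ha
    refine ⟨s * a, s * b, hsa, fun h => (hnp.mem_or_mem h).elim hs hb, ?_⟩
    push_cast
    rw [← hab]
    ring
  obtain ⟨η, hη, hη₁, hη₂⟩ := exists_patch_node h1n h2n (locUnit_iff.1 hθ₁).2.2 e₄
  refine ⟨η, hη, cong_trans hη₁ (cong_symm ?_), cong_trans hη₂ (cong_symm ?_)⟩
  · exact cong_inv hδ₁ (LocUnit_anti h1n hθ₁) hδθ₁
  · exact cong_inv hδ₂ (LocUnit_anti h2n hθ₂) hδθ₂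

/-! ### the theorem -/

/-- **`φ`-ASM, swap form.**  `u ≡ c₁` on `p₁`, `u ≡ c₂` on `p₂`, purity data for `u` at `φ⁻¹ n`
and at `n`  ⟹  local factorisation of `φ u · u ^ Q / (c₁ c₂) ^ Q` at `n`.  At a crossing point
`n` one needs: `n` is fixed by `φ`, the residue field of `n` is that of `R`, and the two
components are transversal at `n`. -/
theorem localFactor_swap_of_pureAt (w : R) (B : Subalgebra R F) (c : SSChart w B)
    (φ : F ≃+* F) (Q : ℕ) (hφ : SwapCtx w B c φ Q)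
    (m : ℕ) (hm : 0 < m) (u : F) (_hu : u ≠ 0) {c₁ c₂ : R} (hc₁ : IsUnit c₁) (hc₂ : IsUnit c₂)
    (hu₁ : InLoc B c.p₁ c.p₁ (u - algebraMap R F c₁))
    (hu₂ : InLoc B c.p₂ c.p₂ (u - algebraMap R F c₂))
    (n : Ideal B) (hn : n.IsMaximal) (hwn : algebraMap R B w ∈ n)
    (hk : c.p₁ ≤ n → c.p₂ ≤ n → ∀ b : B, ∃ r : R, b - algebraMap R B r ∈ n)
    (hfix : c.p₁ ≤ n → c.p₂ ≤ n → ∀ b : B, b ∈ n → hφ.hom b ∈ n)
    (htr : c.p₁ ≤ n → c.p₂ ≤ n → ∀ b : B, b ∈ n → ∃ s : B, s ∉ n ∧ s * b ∈ c.p₁ ⊔ c.p₂)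
    (h' : PureAt B c m u (n.comap hφ.hom)) (h : PureAt B c m u n) :
    LocalFactor B c m (φ u * u ^ Q * (algebraMap R F (c₁ * c₂) ^ Q)⁻¹) n := by
  have hnp := hn.isPrime
  have hp₁ := c.prime₁
  have hp₂ := c.prime₂
  have h21 : ∀ b : B, b ∉ c.p₂ → hφ.hom b ∉ c.p₁ := fun b hb h => hb ((hφ.map₁₂ b).1 h)
  have h12 : ∀ b : B, b ∉ c.p₁ → hφ.hom b ∉ c.p₂ := fun b hb h => hb ((hφ.map₂₁ b).1 h)
  have hv₁ : InLoc B c.p₁ c.p₁ (φ u * u ^ Q * (algebraMap R F (c₁ * c₂) ^ Q)⁻¹ - 1) :=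
    hφ.cong_one (mem_w_left c) hφ.map₁₂ hc₁ hc₂ hu₁ hu₂
  have hv₂ : InLoc B c.p₂ c.p₂ (φ u * u ^ Q * (algebraMap R F (c₁ * c₂) ^ Q)⁻¹ - 1) := by
    have := hφ.cong_one (mem_w_right c) hφ.map₂₁ hc₂ hc₁ hu₂ hu₁
    rwa [mul_comm c₂ c₁] at this
  have hCn : LocUnit B n (algebraMap R F (c₁ * c₂) ^ Q) :=
    locUnit_pow (locUnit_const (hc₁.mul hc₂)) Q
  obtain ⟨d, hd0, hε, hd₁, hd₂⟩ := h
  by_cases h1n : c.p₁ ≤ n
  · by_cases h2n : c.p₂ ≤ n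
    · -- crossing point
      have hfix' := hfix h1n h2n
      have hnn : ∀ b : B, b ∉ n → hφ.hom b ∉ n :=
        fun b hb h => hb (hφ.mem_of_hom_mem hn hfix' b h)
      obtain ⟨η, hη, hη₁, hη₂⟩ := hφ.exists_eta_node hn h1n h2n hwn (hk h1n h2n) hfix'
        (htr h1n h2n) hm hc₁ hc₂ hu₁ hu₂ hd₁ hd₂ hε
      have hrel : φ u * u ^ Q * (algebraMap R F (c₁ * c₂) ^ Q)⁻¹ * (φ d * d ^ Q) ^ m
          = φ (u * d ^ m) * (u * d ^ m) ^ Q * (algebraMap R F (c₁ * c₂) ^ Q)⁻¹ := by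
        rw [map_mul φ, map_pow φ]
        ring
      exact localFactor_of_patch c hrel
        (locUnit_iff.1 (locUnit_mul (locUnit_mul (hφ.locUnit hnn hε) (locUnit_pow hε Q))
          (locUnit_inv hCn))).2.1 hη
        (locUnit_mul (hφ.locUnit h21 hd₂) (locUnit_pow hd₁ Q))
        (locUnit_mul (hφ.locUnit h12 hd₁) (locUnit_pow hd₂ Q))
        hv₁ hv₂ hη₁ hη₂
    · -- smooth point on the first component
      obtain ⟨d', hd'0, hε', hd'₁, hd'₂⟩ := h'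
      have hδ₁ : LocUnit B c.p₁ (φ d' * d ^ Q) :=
        locUnit_mul (hφ.locUnit h21 hd'₂) (locUnit_pow hd₁ Q)
      have hδ₂ : LocUnit B c.p₂ (φ d' * d ^ Q) :=
        locUnit_mul (hφ.locUnit h12 hd'₁) (locUnit_pow hd₂ Q)
      have hυ : LocUnit B n
          (φ (u * d' ^ m) * (u * d ^ m) ^ Q * (algebraMap R F (c₁ * c₂) ^ Q)⁻¹) :=
        locUnit_mul (locUnit_mul (hφ.locUnit (hφ.not_mem_comap n) hε') (locUnit_pow hε Q))
          (locUnit_inv hCn)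
      have hrel : φ u * u ^ Q * (algebraMap R F (c₁ * c₂) ^ Q)⁻¹ * (φ d' * d ^ Q) ^ m
          = φ (u * d' ^ m) * (u * d ^ m) ^ Q * (algebraMap R F (c₁ * c₂) ^ Q)⁻¹ := by
        rw [map_mul φ, map_pow φ]
        ring
      obtain ⟨η, hη, hη₁, hη₂⟩ :=
        exists_eta_smooth h1n h2n c.not_le₁₂ c.normal₁ hm hrel hυ hδ₁ hδ₂ hv₁
      exact localFactor_of_patch c hrel (locUnit_iff.1 hυ).2.1 hη hδ₁ hδ₂ hv₁ hv₂ hη₁ hη₂
  · -- smooth point on the second component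
    have h2n : c.p₂ ≤ n := by
      have hle : c.p₁ ⊓ c.p₂ ≤ n := by
        rw [c.inf_eq, Ideal.span_singleton_le_iff_mem]
        exact hwn
      rcases (Ideal.IsPrime.inf_le hnp).1 hle with h | h
      · exact absurd h h1n
      · exact h
    obtain ⟨d', hd'0, hε', hd'₁, hd'₂⟩ := h'
    have hδ₁ : LocUnit B c.p₁ (φ d' * d ^ Q) :=
      locUnit_mul (hφ.locUnit h21 hd'₂) (locUnit_pow hd₁ Q)
    have hδ₂ : LocUnit B c.p₂ (φ d' * d ^ Q) :=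
      locUnit_mul (hφ.locUnit h12 hd'₁) (locUnit_pow hd₂ Q)
    have hυ : LocUnit B n
        (φ (u * d' ^ m) * (u * d ^ m) ^ Q * (algebraMap R F (c₁ * c₂) ^ Q)⁻¹) :=
      locUnit_mul (locUnit_mul (hφ.locUnit (hφ.not_mem_comap n) hε') (locUnit_pow hε Q))
        (locUnit_inv hCn)
    have hrel : φ u * u ^ Q * (algebraMap R F (c₁ * c₂) ^ Q)⁻¹ * (φ d' * d ^ Q) ^ m
        = φ (u * d' ^ m) * (u * d ^ m) ^ Q * (algebraMap R F (c₁ * c₂) ^ Q)⁻¹ := by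
      rw [map_mul φ, map_pow φ]
      ring
    obtain ⟨η, hη, hη₂, hη₁⟩ :=
      exists_eta_smooth h2n h1n c.not_le₂₁ c.normal₂ hm hrel hυ hδ₂ hδ₁ hv₂
    exact localFactor_of_patch c hrel (locUnit_iff.1 hυ).2.1 hη hδ₁ hδ₂ hv₁ hv₂ hη₁ hη₂

end Fermat.Agent.Ribet.H818
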