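import Fermat.Agent.Ribet.H818.SwapLevel
import Fermat.Agent.Ribet.H714.DictCore
import Fermat.Agent.S35.G.H169.T1F
import Fermat.Agent.S35.G.H305.IFs
import Fermat.Agent.A2.T1.H669.T2

/-!
# Row RIBET, WALL-q, leaf FROB-AL — the Kummer statement over `ℚ̄` (helper818)

`kummerSwapBar` (UNCONDITIONAL): `N = M * q`, `q ∤ M` prime, `HasAux M q`, `A ∣ q`, `s` a Frobenius
element at `A`, `w_q` ANY swap of `F̄ = ℚ̄(X₀(M q))` (`w_q ∘ α = β`, `w_q ∘ β = α`), `m > 0`
prime to `q`.  For `f ∈ F̄ˣ` with `m ∣ div f` which is an `m`-th power times an element of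
`1 + 𝔪` at the Gauss valuation `V̄∞` (`H553.VinfModular`) and at `V̄₀ = V̄∞ ∘ w_N`:

    σ_s (w_q f) · f ^ q = y ^ m      for some `y ∈ F̄ˣ`.

Proof: descent to a good level `E ∋ ζ_q` stable under `s` (`S35.G.H305.ifsStatement`,
`T1.H669.exists_finset_descent`), weak approximation for `V∞ ≠ V₀` (`H714.exists_mul_approx`),
the level statement `H818.levelFrobSwap`, and back along `ι : F_E → F̄`.
-/

set_option autoImplicit false
set_option linter.unusedSectionVars false
set_option linter.unusedVariables false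
set_option linter.style.haveILetI false
set_option synthInstance.maxHeartbeats 400000
set_option maxHeartbeats 4000000

noncomputable section

namespace Fermat.Agent.Ribet.H818

open ModularCurve AlgebraicCurve HahnSeries
open Fermat.Agent.A2.Mod
open Fermat.Agent.A2.T1.H669 (iota iota_ne_zero iota_algebraMap iota_injective)
open Fermat.Agent.S35.G (actE StableUnder HasAux)
open Fermat.Agent.S35.H433 (PowVU)
open Fermat.Agent.Ribet.H714 (LevelCtx val_sub_one_mul val_sub_one_inv val_sub_one_pow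
  exists_mul_approx val_lt_one_iff_iota val_comap_lt_one pow_mul_mem_mono)

section Split

variable {M q : ℕ} [NeZero M] [NeZero q] [NeZero (M * q)]
variable {A : ValuationSubring (AlgebraicClosure ℚ)}
  {E : IntermediateField ℚ (AlgebraicClosure ℚ)} {w : RE A E}
  {V : ValuationSubring ↥(FE E (M * q))}
  {W : ↥(FE E (M * q)) ≃ₐ[↥E] ↥(FE E (M * q))}

/-- **Gluing the two `m`-th roots** (`H714.LevelCtx.exists_split` with an arbitrary exponent). -/
theorem exists_split818 (h : LevelCtx M q A E w V W) (hq : q.Prime)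
    (hA : A.LiesOverPrime q) (m : ℕ) (yf ya yb : ↥(FE E (M * q))) (hya : ya ≠ 0)
    (hyb : yb ≠ 0)
    (h1 : (Fermat.Agent.A2.H553.VinfModular A hq.ne_zero hA (M * q)).valuation
      (iota E (modularFunctionFieldFull (M * q)) (yf * (ya ^ m)⁻¹) - 1) < 1)
    (h2 : (Fermat.Agent.A2.H553.VinfModular A hq.ne_zero hA (M * q)).valuation
      (Fermat.Agent.A2.H528.wF (M * q)
        (iota E (modularFunctionFieldFull (M * q)) (yf * (yb ^ m)⁻¹)) - 1) < 1) :
    ∃ g : ↥(FE E (M * q)), g ≠ 0 ∧ V.valuation (yf * (g ^ m)⁻¹ - 1) < 1 ∧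
      (V.comap (W : ↥(FE E (M * q)) →+* ↥(FE E (M * q)))).valuation
        (yf * (g ^ m)⁻¹ - 1) < 1 := by
  have hdvr := h.dvr
  have hV := h.isVinf
  obtain ⟨k₁, hk₁⟩ := h.disc (mul_ne_zero hyb (inv_ne_zero hya))
  obtain ⟨k₂, hk₂⟩ := h.disc₀ (mul_ne_zero hya (inv_ne_zero hyb))
  obtain ⟨g, hg0, hg1, hg2⟩ := exists_mul_approx h.unif h.unif₀ h.ne hya hyb (k₁ + k₂)
    (pow_mul_mem_mono V h.unif.mem _ (Nat.le_add_right _ _) hk₁)
    (pow_mul_mem_mono _ h.unif₀.mem _ (Nat.le_add_left _ _) hk₂)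
  refine ⟨g, hg0, ?_, ?_⟩
  · have e1 : yf * (g ^ m)⁻¹ = (yf * (ya ^ m)⁻¹) * ((g * ya⁻¹)⁻¹) ^ m := by
      have hyaq : ya ^ m ≠ 0 := pow_ne_zero _ hya
      rw [mul_inv, inv_inv, mul_pow, inv_pow]
      field_simp
    rw [e1]
    refine val_sub_one_mul ?_ (val_sub_one_pow (val_sub_one_inv hg1) m)
    rw [val_lt_one_iff_iota hdvr hV hq.ne_zero hA, map_sub, map_one]
    exact h1
  · have e1 : yf * (g ^ m)⁻¹ = (yf * (yb ^ m)⁻¹) * ((g * yb⁻¹)⁻¹) ^ m := by
      have hybq : yb ^ m ≠ 0 := pow_ne_zero _ hyb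
      rw [mul_inv, inv_inv, mul_pow, inv_pow]
      field_simp
    rw [e1]
    refine val_sub_one_mul ?_ (val_sub_one_pow (val_sub_one_inv hg2) m)
    rw [val_comap_lt_one V (W : ↥(FE E (M * q)) →+* ↥(FE E (M * q)))]
    show V.valuation (W (yf * (yb ^ m)⁻¹ - 1)) < 1
    rw [val_lt_one_iff_iota hdvr hV hq.ne_zero hA, map_sub, map_one, map_sub, map_one, h.iotaW]
    exact h2

/-- `u ∈ 1 + 𝔪_V` is an `m`-th power modulo the uniformiser (`PowVU` with root `1`). -/
theorem powVU_of_val_lt_one818 {F R : Type*} [CommRing R] [Field F] [Algebra R F]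
    {V' : ValuationSubring F} {ϖ : R} (hU : Fermat.Agent.A2.H48.IsUnif V' (algebraMap R F ϖ))
    (m : ℕ) {u : F} (hu : V'.valuation (u - 1) < 1) : PowVU ϖ V' m u := by
  refine ⟨1, one_ne_zero, V'.one_mem, by rw [inv_one]; exact V'.one_mem, ?_⟩
  rw [one_pow]
  by_cases h0 : u - 1 = 0
  · rw [h0, zero_mul]
    exact V'.zero_mem
  · have hmem : u - 1 ∈ V' := (V'.valuation_le_one_iff _).1 hu.le
    have hinv : (u - 1)⁻¹ ∉ V' := by
      intro hc
      have h1 : V'.valuation (u - 1)⁻¹ ≤ 1 := (V'.valuation_le_one_iff _).2 hc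
      have hne : V'.valuation (u - 1) ≠ 0 := (Valuation.ne_zero_iff _).2 h0
      rw [map_inv₀, inv_le_one₀ (zero_lt_iff.2 hne)] at h1
      exact absurd hu (not_lt.2 h1)
    exact hU.gen _ hmem hinv

end Split

/-! ### The swap at level `E` and over `ℚ̄` -/

section Iota

variable (E : IntermediateField ℚ Qb) (M q : ℕ) [NeZero M] [NeZero q]

/-- `ι` intertwines a swap at level `E` and a swap over `ℚ̄`. -/
theorem iota_swap818 (hq : q.Prime)
    (swE : ↥(FE E (M * q)) →+* ↥(FE E (M * q)))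
    (hα : ∀ a : FE E M, swE (αE E M q a) = βE E M q a)
    (hβ : ∀ a : FE E M, swE (βE E M q a) = αE E M q a)
    (swB : ↥(modularFunctionFieldBar (M * q)) →+* ↥(modularFunctionFieldBar (M * q)))
    (hBα : ∀ a : modularFunctionFieldBar M,
      swB (heckeAlphaBar Qb M q a) = heckeBetaBar Qb M q a)
    (hBβ : ∀ a : modularFunctionFieldBar M,
      swB (heckeBetaBar Qb M q a) = heckeAlphaBar Qb M q a)
    (x : ↥(FE E (M * q))) :
    iota E (modularFunctionFieldFull (M * q)) (swE x) =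
      swB (iota E (modularFunctionFieldFull (M * q)) x) := by
  refine Fermat.Agent.Ribet.H801.ringHom_ext_alpha_beta_gen (L := E) (M := M) (p := q) hq
    ((iota E (modularFunctionFieldFull (M * q))).comp swE)
    (swB.comp (iota E (modularFunctionFieldFull (M * q)))) ?_ ?_ x
  · intro a
    show iota E _ (swE (heckeAlphaBar E M q a)) = swB (iota E _ (heckeAlphaBar E M q a))
    rw [hα, Fermat.Agent.S35.G.H169.iota_alpha, Fermat.Agent.S35.G.H169.iota_beta, hBα]
  · intro a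
    show iota E _ (swE (heckeBetaBar E M q a)) = swB (iota E _ (heckeBetaBar E M q a))
    rw [hβ, Fermat.Agent.S35.G.H169.iota_alpha, Fermat.Agent.S35.G.H169.iota_beta, hBβ]

end Iota

/-! ### The Kummer statement over `ℚ̄` -/

section Bar

variable (M q m : ℕ) [NeZero M] [NeZero q] [NeZero (M * q)]

/-- **FROB-AL, Kummer form over `ℚ̄`** (UNCONDITIONAL). -/
theorem kummerSwapBar (hq : q.Prime) (hqM : ¬ q ∣ M) (haux : HasAux M q) (hm : 0 < m)
    (hqm : ¬ q ∣ m) (A : ValuationSubring Qb) (hA : A.LiesOverPrime q)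
    (s : Qb ≃ₐ[ℚ] Qb) (hs : A.IsFrobeniusAt s q)
    (swB : ↥(modularFunctionFieldBar (M * q)) →+* ↥(modularFunctionFieldBar (M * q)))
    (hBα : ∀ a : modularFunctionFieldBar M,
      swB (heckeAlphaBar Qb M q a) = heckeBetaBar Qb M q a)
    (hBβ : ∀ a : modularFunctionFieldBar M,
      swB (heckeBetaBar Qb M q a) = heckeAlphaBar Qb M q a)
    (f : ↥(modularFunctionFieldBar (M * q))) (hf : f ≠ 0)
    (hdiv : ∀ v : Place Qb ↥(modularFunctionFieldBar (M * q)), (m : ℤ) ∣ v.ord f)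
    (a b : ↥(modularFunctionFieldBar (M * q))) (ha : a ≠ 0) (hb : b ≠ 0)
    (h1 : (Fermat.Agent.A2.H553.VinfModular A hq.ne_zero hA (M * q)).valuation
      (f * (a ^ m)⁻¹ - 1) < 1)
    (h2 : (Fermat.Agent.A2.H553.VinfModular A hq.ne_zero hA (M * q)).valuation
      (Fermat.Agent.A2.H528.wF (M * q) (f * (b ^ m)⁻¹) - 1) < 1) :
    ∃ y : ↥(modularFunctionFieldBar (M * q)), y ≠ 0 ∧
      arithmeticRingAut (modularFunctionFieldFull (M * q)) s (swB f) * f ^ q = y ^ m := by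
  classical
  set F₀ := modularFunctionFieldFull (M * q) with hF₀
  -- a primitive `q`-th root of unity
  obtain ⟨ζ, hζ⟩ := Fermat.Agent.S37.H88.exists_primitiveRoot_bar q
  -- descent
  obtain ⟨Sf, hSf⟩ := Fermat.Agent.A2.T1.H669.exists_finset_descent F₀ f
  obtain ⟨Sa, hSa⟩ := Fermat.Agent.A2.T1.H669.exists_finset_descent F₀ a
  obtain ⟨Sb, hSb⟩ := Fermat.Agent.A2.T1.H669.exists_finset_descent F₀ b
  obtain ⟨E, hSE, hE, hsE⟩ := Fermat.Agent.S35.G.H305.ifsStatement q hq A hA s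
    hs.mem_decompositionSubgroup (Sf ∪ Sa ∪ Sb ∪ {ζ})
  obtain ⟨yf, hyf⟩ := hSf E (fun t ht => hSE t (by simp [ht]))
  obtain ⟨ya, hya⟩ := hSa E (fun t ht => hSE t (by simp [ht]))
  obtain ⟨yb, hyb⟩ := hSb E (fun t ht => hSE t (by simp [ht]))
  have hζE : ζ ∈ E := hSE ζ (by simp)
  have hya0 : ya ≠ 0 := by
    rintro rfl
    rw [map_zero] at hya
    exact ha hya.symm
  have hyb0 : yb ≠ 0 := by
    rintro rfl
    rw [map_zero] at hyb
    exact hb hyb.symm
  have hyf0 : yf ≠ 0 := by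
    rintro rfl
    rw [map_zero] at hyf
    exact hf hyf.symm
  -- the level
  haveI hdvr : IsDiscreteValuationRing ↥(RE A E) := hE.dvr
  obtain ⟨w, hw⟩ := IsDiscreteValuationRing.exists_irreducible ↥(RE A E)
  have hS : Setting A E M q w :=
    { q_prime := hq
      q_not_dvd := hqM
      M_ne_zero := NeZero.ne M
      lies_over := hA
      dvr := hdvr
      unif := hw }
  obtain ⟨V, hV⟩ := H553.vinfExists A E (M * q) (NeZero.ne _) hdvr
  have hW : IsFricke E (M * q) (H553.wE E (M * q)) := H553.isFricke_wE E (M * q)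
  have hL : LevelCtx M q A E w V (H553.wE E (M * q)) :=
    { dvr := hdvr
      setting := hS
      isVinf := hV
      isFricke := hW
      iotaW := fun z => H553.iota_wE E (M * q) z }
  -- the swap at level `E`
  set ζE : E := ⟨ζ, hζE⟩ with hζEdef
  have hζE' : IsPrimitiveRoot ζE q :=
    IsPrimitiveRoot.of_map_of_injective (f := algebraMap E Qb) hζ (algebraMap E Qb).injective
  obtain ⟨sw₀, hsw₀α, hsw₀β⟩ :=
    Fermat.Agent.S37.H88.exists_swap (L := E) (N := M) (ℓ := q) hq hqM hζE'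
  set sw : ↥(FE E (M * q)) ≃+* ↥(FE E (M * q)) :=
    Fermat.Agent.Ribet.H801.swapEquivGen (L := E) (M := M) (p := q) hq sw₀ hsw₀α hsw₀β with hsw
  have hswα : ∀ a : FE E M, sw (αE E M q a) = βE E M q a := hsw₀α
  have hswβ : ∀ a : FE E M, sw (βE E M q a) = αE E M q a := hsw₀β
  -- gluing
  have h1' : (Fermat.Agent.A2.H553.VinfModular A hq.ne_zero hA (M * q)).valuation
      (iota E F₀ (yf * (ya ^ m)⁻¹) - 1) < 1 := by
    rw [map_mul, map_inv₀, map_pow, hyf, hya]
    exact h1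
  have h2' : (Fermat.Agent.A2.H553.VinfModular A hq.ne_zero hA (M * q)).valuation
      (Fermat.Agent.A2.H528.wF (M * q) (iota E F₀ (yf * (yb ^ m)⁻¹)) - 1) < 1 := by
    rw [map_mul (iota E F₀), map_inv₀ (iota E F₀), map_pow (iota E F₀), hyf, hyb]
    exact h2
  obtain ⟨g, hg0, hgV, hgV₀⟩ := exists_split818 hL hq hA m yf ya yb hya0 hyb0 h1' h2'
  set u : ↥(FE E (M * q)) := yf * (g ^ m)⁻¹ with hu
  have hu0 : u ≠ 0 := mul_ne_zero hyf0 (inv_ne_zero (pow_ne_zero _ hg0))
  have hyfu : yf = u * g ^ m := by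
    rw [hu, mul_assoc, inv_mul_cancel₀ (pow_ne_zero _ hg0), mul_one]
  -- divisibility of the divisor
  have hdd : Fermat.Agent.A2.DivisibleDiv E m u := by
    refine Fermat.Agent.A2.T1.H669.divisibleDiv_of_ord E F₀ m u hu0 (fun v => ?_)
    have hιg : iota E F₀ g ≠ 0 := iota_ne_zero E F₀ hg0
    have e : iota E F₀ u = f * ((iota E F₀ g) ^ m)⁻¹ := by
      rw [hu, map_mul, map_inv₀, map_pow, hyf]
    rw [e, Place.ord_mul v hf (inv_ne_zero (pow_ne_zero _ hιg)), Place.ord_inv,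
      Fermat.Agent.A2.H129.ord_pow]
    exact dvd_sub (hdiv v) (Dvd.intro _ rfl)
  -- the level statement
  have hp₁ : PowVU w V m u := powVU_of_val_lt_one818 (R := ↥(RE A E)) hL.unif m hgV
  have hp₂ : PowVU w (V.comap (H553.wE E (M * q) : ↥(FE E (M * q)) →+* ↥(FE E (M * q)))) m u :=
    powVU_of_val_lt_one818 (R := ↥(RE A E)) hL.unif₀ m hgV₀
  obtain ⟨h, hh0, hrel⟩ := levelFrobSwap A E M q m hq hqM haux hm hqm hA hE sw hswα hswβ
    s hsE hs w hw V (H553.wE E (M * q)) hV hW u hu0 hdd hp₁ hp₂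
  -- back to `yf`
  set σ := actE E (M * q) (resE E s hsE) with hσ
  have hσg : σ (sw g) ≠ 0 := (map_ne_zero σ).2 ((map_ne_zero sw).2 hg0)
  set z : ↥(FE E (M * q)) := σ (sw g) * g ^ q * h with hz
  have hz0 : z ≠ 0 := mul_ne_zero (mul_ne_zero hσg (pow_ne_zero _ hg0)) hh0
  have hrelf : σ (sw yf) * yf ^ q = z ^ m := by
    rw [hyfu, map_mul, map_mul, map_pow, map_pow, mul_pow, hz, mul_pow, mul_pow, ← hrel]
    ring
  -- push to `ℚ̄`
  refine ⟨iota E F₀ z, iota_ne_zero E F₀ hz0, ?_⟩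
  have key := congrArg (iota E F₀) hrelf
  rw [map_mul, map_pow, map_pow, hyf] at key
  have hσι : iota E F₀ (σ (sw yf)) = arithmeticRingAut F₀ s (swB f) := by
    rw [hσ]
    have h3 := Fermat.Agent.A2.T1.H669.iota_arithmeticRingAut E F₀ s (resE E s hsE)
      (fun _ => rfl) (sw yf)
    have h4 : iota E F₀ (sw yf) = swB f := by
      rw [← hyf]
      exact iota_swap818 E M q hq (sw : ↥(FE E (M * q)) →+* ↥(FE E (M * q))) hswα hswβ
        swB hBα hBβ yf
    rw [← h4]
    exact h3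
  rw [hσι] at key
  exact key

end Bar

end Fermat.Agent.Ribet.H818

end
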