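import Fermat.Agent.Ribet.H818.SwapFinal
import Fermat.Agent.S35.H433.AlgFrob

/-!
# Row RIBET, WALL-q — ALG-FROB for a component-SWAPPING Frobenius, interface form (helper818)

`algFrobSwapU : AlgFrobSwapStatementU` (UNCONDITIONAL).

`AlgFrobSwapStatementU` is the statement `S35.H433.AlgFrobStatementU` (= the frozen
`S35.G.AlgFrobStatement` with the corrected `PowVU`) with

* `ψ` preserving `V₁`, `V₂`   REPLACED BY   `ψ V₁ ⊆ V₂`, `ψ V₂ ⊆ V₁`   (`ψ` swaps the components),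
* conclusion `ψ h = y ^ m · h ^ Q`   REPLACED BY   `ψ h · h ^ Q = y ^ m`,
* the two `SepCoord` hypotheses dropped.

Model case (Mazur's principle at `q ‖ N = M q`): `ψ = σ ∘ w_q` on `F_E(M q)`, `σ` = action of a
Frobenius lift on the coefficients, `w_q` the Atkin–Lehner involution (it fixes `x = j · j_q`,
swaps `V∞` and `V₀`, and induces the Frobenius on the supersingular points), `Q = q`.  Then for
every toric Kummer generator `h` (residues at `V∞`, `V₀` are `m`-th powers):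
`σ (w_q h) · h ^ q ∈ (Fˣ)^m`, i.e. `Frob_q = -q · w_q` on the toric part of `J₀(N)[m]`.
-/

set_option autoImplicit false
set_option linter.unusedSectionVars false
set_option linter.unusedVariables false

namespace Fermat.Agent.Ribet.H818

open Fermat.Agent.A2 Fermat.Agent.A2.Alg Fermat.Agent.A2.H348 Fermat.Agent.A2.Alg.H348
open Fermat.Agent.S35.H433
open Fermat.Agent.S35.G (CutBy NodeStable)

section Phi

variable {R F : Type*} [CommRing R] [Field F] [Algebra R F]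

/-- `ψ` maps the component cut out by `V` into the component cut out by `V'` if `ψ V ⊆ V'`. -/
theorem restrictHom_mem_of_cut₂ {w : R} {B : Subalgebra R F} {p p' : Ideal B}
    (V V' : ValuationSubring F) (hle' : ∀ b ∈ B, b ∈ V')
    (hcut : ∀ b : B, b ∈ p ↔ (b : F) * (algebraMap R F w)⁻¹ ∈ V)
    (hcut' : ∀ b : B, b ∈ p' ↔ (b : F) * (algebraMap R F w)⁻¹ ∈ V')
    (ψ : F ≃+* F) (hψB : ∀ b : F, b ∈ B → ψ b ∈ B) (hψV : ∀ f ∈ V, ψ f ∈ V')
    (t : R) (hψw : ψ (algebraMap R F w) = algebraMap R F w * algebraMap R F t)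
    (hw0 : algebraMap R F w ≠ 0) {b : B} (hb : b ∈ p) : restrictHom ψ B hψB b ∈ p' := by
  rw [hcut] at hb
  rw [hcut']
  have h1 := hψV _ hb
  rw [map_mul, map_inv₀, hψw] at h1
  have ht0 : algebraMap R F t ≠ 0 := by
    intro h
    have : ψ (algebraMap R F w) = 0 := by rw [hψw, h, mul_zero]
    exact hw0 ((map_eq_zero_iff ψ ψ.injective).1 this)
  have e : ((restrictHom ψ B hψB b : B) : F) * (algebraMap R F w)⁻¹
      = ψ b * (algebraMap R F w * algebraMap R F t)⁻¹ * algebraMap R F t := by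
    rw [coe_restrictHom]
    field_simp
  rw [e]
  exact V'.mul_mem _ _ h1 (hle' _ (B.algebraMap_mem t))

/-- `ψ` maps `B_p` onto `B_{p'}` if it preserves `B` and maps `p` onto `p'`. -/
theorem swap_mem_locAt_iff {B : Subalgebra R F} {p p' : Ideal B} [hp : p.IsPrime]
    [hp' : p'.IsPrime] (ψ : F ≃+* F)
    (hψB : ∀ b : F, b ∈ B → ψ b ∈ B) (hψB' : ∀ b : F, ψ b ∈ B → b ∈ B)
    (hmap : ∀ b : B, restrictHom ψ B hψB b ∈ p' ↔ b ∈ p) (z : F) :
    ψ z ∈ locAt B p' ↔ z ∈ locAt B p := by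
  constructor
  · rintro ⟨s, hs, hsz⟩
    have hs'B : ψ.symm (s : F) ∈ B := hψB' _ (by rw [ψ.apply_symm_apply]; exact s.2)
    refine ⟨⟨ψ.symm s, hs'B⟩, ?_, ?_⟩
    · intro h
      apply hs
      have := (hmap ⟨ψ.symm s, hs'B⟩).2 h
      have e : restrictHom ψ B hψB ⟨ψ.symm s, hs'B⟩ = s :=
        Subtype.ext (by simp)
      rwa [e] at this
    · apply hψB'
      show ψ (ψ.symm (s : F) * z) ∈ B
      rw [map_mul, ψ.apply_symm_apply]
      exact hsz
  · rintro ⟨s, hs, hsz⟩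
    refine ⟨restrictHom ψ B hψB s, fun h => hs ((hmap s).1 h), ?_⟩
    rw [coe_restrictHom, ← map_mul]
    exact hψB _ hsz

end Phi

section Data

variable {R E F : Type*} [CommRing R] [IsDomain R] [IsDiscreteValuationRing R]
  [Field E] [CharZero E] [Algebra R E] [IsFractionRing R E]
  [Field F] [Algebra E F] [Algebra R F] [IsScalarTower R E F]

/-- `ψ` swaps (both ways) the two components of a chart which are cut out by two valuation rings
swapped by `ψ`. -/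
theorem restrictHom_swap_iff_of_cut (w : R) (x : F) (B : Subalgebra R F) (hB : ChartCtx E w x B)
    {p p' : Ideal B} [hp : p.IsPrime] [hp' : p'.IsPrime]
    (hinf : p ⊓ p' = Ideal.span {algebraMap R B w}) (hle₁ : ¬ p' ≤ p)
    (V V' : ValuationSubring F) (hle : ∀ b ∈ B, b ∈ V) (hle' : ∀ b ∈ B, b ∈ V')
    (hcut : ∀ b : B, b ∈ p ↔ (b : F) * (algebraMap R F w)⁻¹ ∈ V)
    (hcut' : ∀ b : B, b ∈ p' ↔ (b : F) * (algebraMap R F w)⁻¹ ∈ V')
    (ψ : F ≃+* F) (ψR : R ≃+* R)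
    (hψR : ∀ r : R, ψ (algebraMap R F r) = algebraMap R F (ψR r))
    (hψB : ∀ b : F, b ∈ B → ψ b ∈ B) (hψB' : ∀ b : F, ψ b ∈ B → b ∈ B)
    (hψV : ∀ f ∈ V, ψ f ∈ V') (hψV' : ∀ f ∈ V', ψ f ∈ V) (b : B) :
    restrictHom ψ B hψB b ∈ p' ↔ b ∈ p := by
  have hw0 : algebraMap R F w ≠ 0 := by
    intro h
    exact hB.hw.ne_zero (H34.algebraMap_RF_injective (R := R) (F := F) E (by rw [h, map_zero]))
  have hmax : ∀ (e : R ≃+* R), ∃ t : R, e w = w * t := by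
    intro e
    have h1 : e w ∈ IsLocalRing.maximalIdeal R := by
      rw [IsLocalRing.mem_maximalIdeal, mem_nonunits_iff]
      intro hu
      apply hB.hw.not_isUnit
      have := hu.map e.symm
      rwa [RingEquiv.symm_apply_apply] at this
    rw [hB.hw.maximalIdeal_eq, Ideal.mem_span_singleton] at h1
    exact h1
  obtain ⟨t, ht⟩ := hmax ψR
  have hψw : ψ (algebraMap R F w) = algebraMap R F w * algebraMap R F t := by
    rw [hψR, ht, map_mul]
  have hfwd : ∀ c : B, c ∈ p → restrictHom ψ B hψB c ∈ p' := fun c hc =>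
    restrictHom_mem_of_cut₂ V V' hle' hcut hcut' ψ hψB hψV t hψw hw0 hc
  have hfwd' : ∀ c : B, c ∈ p' → restrictHom ψ B hψB c ∈ p := fun c hc =>
    restrictHom_mem_of_cut₂ V' V hle hcut' hcut ψ hψB hψV' t hψw hw0 hc
  refine ⟨fun h => ?_, hfwd b⟩
  -- `ψ²` preserves `V`, hence `p` (both ways)
  have hψ2R : ∀ r : R, (ψ.trans ψ) (algebraMap R F r) = algebraMap R F ((ψR.trans ψR) r) := by
    intro r
    rw [RingEquiv.trans_apply, RingEquiv.trans_apply, hψR, hψR]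
  have hψ2B : ∀ c : F, c ∈ B → (ψ.trans ψ) c ∈ B := fun c hc => by
    rw [RingEquiv.trans_apply]
    exact hψB _ (hψB _ hc)
  have hψ2B' : ∀ c : F, (ψ.trans ψ) c ∈ B → c ∈ B := fun c hc => by
    rw [RingEquiv.trans_apply] at hc
    exact hψB' _ (hψB' _ hc)
  have hψ2V : ∀ f ∈ V, (ψ.trans ψ) f ∈ V := fun f hf => by
    rw [RingEquiv.trans_apply]
    exact hψV' _ (hψV _ hf)
  have h2 := restrictHom_mem_iff_of_cut w x B hB hinf hle₁ V hle hcut (ψ.trans ψ) (ψR.trans ψR)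
    hψ2R hψ2B hψ2B' hψ2V b
  apply h2.1
  have h3 := hfwd' _ h
  have e : restrictHom (ψ.trans ψ) B hψ2B b = restrictHom ψ B hψB (restrictHom ψ B hψB b) :=
    Subtype.ext (by simp)
  rw [e]
  exact h3

end Data

/-- **ALG-FROB for a swapping `ψ` (interface statement)**: `S35.H433.AlgFrobStatementU` with `ψ`
swapping `V₁` and `V₂` (and without `SepCoord`); conclusion `ψ h · h ^ Q = y ^ m`. -/
def AlgFrobSwapStatementU : Prop :=
  ∀ {R E F : Type} [CommRing R] [IsDomain R] [IsDiscreteValuationRing R] [HenselianLocalRing R]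
    [IsAlgClosed (IsLocalRing.ResidueField R)]
    [Field E] [CharZero E] [Algebra R E] [IsFractionRing R E]
    [Field F] [Algebra E F] [Algebra R F] [IsScalarTower R E F]
    (w : R) (_ : Irreducible w) (q m Q : ℕ) (_ : q.Prime)
    (_ : (q : R) ∈ IsLocalRing.maximalIdeal R) (_ : 0 < m) (_ : ¬ q ∣ m)
    (x : F) (_ : Transcendental E x)
    (_ : FiniteDimensional (IntermediateField.adjoin E ({x} : Set F)) F)
    (_ : ∀ f : F, IsAlgebraic E f → f ∈ (algebraMap E F).range)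
    (Bf Bi : Subalgebra R F)
    (_ : ∀ f : F, f ∈ Bf ↔ IsIntegral (Algebra.adjoin R ({x} : Set F)) f)
    (_ : ∀ f : F, f ∈ Bi ↔ IsIntegral (Algebra.adjoin R ({x⁻¹} : Set F)) f)
    (cf : A2.SSChart w Bf) (ci : A2.SSChart w Bi)
    (V₁ V₂ : ValuationSubring F) (_ : CutBy w Bf cf V₁ V₂) (_ : CutBy w Bi ci V₁ V₂)
    (ψ : F ≃+* F) (ψE : E ≃+* E) (ψR : R ≃+* R)
    (_ : ∀ e : E, ψ (algebraMap E F e) = algebraMap E F (ψE e))
    (_ : ∀ r : R, ψE (algebraMap R E r) = algebraMap R E (ψR r))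
    (_ : ψ x = x)
    (_ : ∀ r : R, ψR r - r ^ Q ∈ IsLocalRing.maximalIdeal R)
    (_ : ∀ f ∈ V₁, ψ f ∈ V₂) (_ : ∀ f ∈ V₂, ψ f ∈ V₁)
    (_ : NodeStable Bf cf ψ) (_ : NodeStable Bi ci ψ),
    ∀ h : F, h ≠ 0 → A2.DivisibleDiv E m h → PowVU w V₁ m h → PowVU w V₂ m h →
      ∃ y : F, y ≠ 0 ∧ ψ h * h ^ Q = y ^ m

/-- **ALG-FROB for a swapping `ψ`**, unconditional. -/
theorem algFrobSwapU : AlgFrobSwapStatementU := by
  intro R E F _ _ _ _ _ _ _ _ _ _ _ _ _ w hw q m Q hq hqR hm hqm x hx hfin hconst Bf Bi hBf hBi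
    cf ci V₁ V₂ hcutf hcuti ψ ψE ψR hψE hψER hψx hfrob hψV₁ hψV₂ hnodef hnodei h hh hdiv
    hp₁ hp₂
  have hψR : ∀ r : R, ψ (algebraMap R F r) = algebraMap R F (ψR r) := by
    intro r
    rw [IsScalarTower.algebraMap_apply R E F, hψE, hψER, ← IsScalarTower.algebraMap_apply]
  -- `Q > 0`
  have hQ : 0 < Q := by
    rcases Nat.eq_zero_or_pos Q with rfl | hQ
    · exfalso
      have := hfrob 0
      rw [map_zero, pow_zero, zero_sub] at this
      have h1 : (1 : R) ∈ IsLocalRing.maximalIdeal R := by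
        have := (IsLocalRing.maximalIdeal R).neg_mem this
        rwa [neg_neg] at this
      exact (IsLocalRing.maximalIdeal.isMaximal R).ne_top ((Ideal.eq_top_iff_one _).2 h1)
    · exact hQ
  have hfrob' : ∀ r : R, ∃ s : R, ψR r - r ^ Q = w * s := by
    intro r
    have := hfrob r
    rw [hw.maximalIdeal_eq, Ideal.mem_span_singleton] at this
    exact this
  have hCf : ChartCtx E w x Bf := ⟨hw, hx, hfin, hconst, hBf⟩
  have hpr₁ := cf.prime₁
  have hpr₂ := cf.prime₂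
  have hAB := adjoin_le_of_ctx hCf
  -- `ψ` preserves the chart
  have hψB : ∀ b : F, b ∈ Bf → ψ b ∈ Bf := fun b hb => phi_mem_chart ψ ψR hψR hψx Bf hBf hb
  have hψR' : ∀ r : R, ψ.symm (algebraMap R F r) = algebraMap R F (ψR.symm r) := by
    intro r
    rw [RingEquiv.symm_apply_eq, hψR, RingEquiv.apply_symm_apply]
  have hψx' : ψ.symm x = x := by rw [RingEquiv.symm_apply_eq, hψx]
  have hψB' : ∀ b : F, ψ b ∈ Bf → b ∈ Bf := fun b hb => by
    have := phi_mem_chart ψ.symm ψR.symm hψR' hψx' Bf hBf hb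
    rwa [RingEquiv.symm_apply_apply] at this
  -- the local rings of the two components
  let D₁ := compData₁ hCf cf
  let D₂ := compData₂ hCf cf
  let W₁ : ValuationSubring F := D₁.valuationSubring hAB
  let W₂ : ValuationSubring F := D₂.valuationSubring hAB
  have hW₁ : ValCtx w x W₁ := valCtx_locAt w x Bf hCf D₁
  have hW₂ : ValCtx w x W₂ := valCtx_locAt w x Bf hCf D₂
  have hne : W₁ ≠ W₂ := by
    intro heq
    obtain ⟨t, ht2, ht1⟩ := SetLike.not_le_iff_exists.1 cf.not_le₂₁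
    have h1 : (t : F)⁻¹ ∈ W₁ :=
      ⟨t, ht1, by rw [mul_inv_cancel₀ (coe_ne_zero_of_not_mem ht1)]; exact Bf.one_mem⟩
    rw [heq] at h1
    obtain ⟨s, hs, hst⟩ := h1
    apply hs
    have e : s = ⟨(s : F) * (t : F)⁻¹, hst⟩ * t := by
      apply Subtype.ext
      push_cast
      rw [mul_assoc, inv_mul_cancel₀ (coe_ne_zero_of_not_mem ht1), mul_one]
    rw [e]
    exact cf.p₂.mul_mem_left _ ht2
  -- `ψ` swaps the two components
  have hmap₁₂ : ∀ b : Bf, restrictHom ψ Bf hψB b ∈ cf.p₂ ↔ b ∈ cf.p₁ :=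
    restrictHom_swap_iff_of_cut w x Bf hCf cf.inf_eq cf.not_le₂₁ V₁ V₂ hcutf.le₁ hcutf.le₂
      hcutf.cut₁ hcutf.cut₂ ψ ψR hψR hψB hψB' hψV₁ hψV₂
  have hmap₂₁ : ∀ b : Bf, restrictHom ψ Bf hψB b ∈ cf.p₁ ↔ b ∈ cf.p₂ :=
    restrictHom_swap_iff_of_cut w x Bf hCf (by rw [inf_comm]; exact cf.inf_eq) cf.not_le₁₂
      V₂ V₁ hcutf.le₂ hcutf.le₁ hcutf.cut₂ hcutf.cut₁ ψ ψR hψR hψB hψB' hψV₂ hψV₁
  have hψW₁ : ∀ z : F, ψ z ∈ W₁ ↔ z ∈ W₂ := swap_mem_locAt_iff ψ hψB hψB' hmap₂₁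
  have hψW₂ : ∀ z : F, ψ z ∈ W₂ ↔ z ∈ W₁ := swap_mem_locAt_iff ψ hψB hψB' hmap₁₂
  have hV₁W₁ : ∀ z : F, z ∈ V₁ → z ∈ W₁ := le_locAt_of_cut D₁ hAB V₁ hcutf.le₁ hcutf.cut₁
  have hV₂W₂ : ∀ z : F, z ∈ V₂ → z ∈ W₂ := le_locAt_of_cut D₂ hAB V₂ hcutf.le₂ hcutf.cut₂
  exact swapToricVal w hw q m hq hqR hm hqm x hx hfin hconst Bf Bi hBf hBi
    cf ci W₁ W₂ hW₁ hW₂ hne ψ ψE ψR Q hQ hψE hψER hfrob' hψx hψW₁ hψW₂
    (fun n hn h1 h2 b hb hb' => hnodef n hn h1 h2 b hb ⟨ψ b, hb'⟩ rfl)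
    (fun n hn h1 h2 b hb hb' => hnodei n hn h1 h2 b hb ⟨ψ b, hb'⟩ rfl)
    h hh hdiv (gSplitV_of_powVU hV₁W₁ hW₁.hw hW₁.hR hp₁) (gSplitV_of_powVU hV₂W₂ hW₂.hw hW₂.hR hp₂)

end Fermat.Agent.Ribet.H818
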