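import Fermat.Agent.Ribet.H818.SwapToric
import Fermat.Agent.A2.Top.H96.AlgNoSep

/-!
# Row RIBET, WALL-q — the toric relation for a component-SWAPPING Frobenius, UNCONDITIONAL
(helper818)

`swapToricVal` : the statement `SwapToricValStatement` of `SwapToric.lean` without the two
`SepCoord` hypotheses, proved from the landed leaves of the A2 wall
(`A2.Top.H96.purity_noSep`, `A2.Alg.H348.glue`).

Setting: `R` henselian DVR, residue field algebraically closed of characteristic `q ∤ m`; `F / E`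
a function field with coordinate `x`; `Bf`, `Bi` the integral closures of `R[x]`, `R[1/x]`, both
semistable with two components (`A2.SSChart`); `V₁ ≠ V₂` valuation subrings of `F` with
`S35.H433.ValCtx` (the two extensions of the Gauss valuation); `φ` a semilinear automorphism of `F`
with `φ x = x`, `φ|_R ≡ (·) ^ Q mod w`, `φ V₂ = V₁`, `φ V₁ = V₂`, fixing the crossing points of
both charts.  Then for every `u ≠ 0` with `m ∣ div u` and residues in `kˣ · (κˣ)^m` at `V₁` and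
`V₂`:

    ∃ h ≠ 0,  φ u · u ^ Q = h ^ m.

`swapToricValStatement : SwapToricValStatement` is the same in the frozen-statement shape.
-/

set_option autoImplicit false

namespace Fermat.Agent.Ribet.H818

open Fermat.Agent.A2 Fermat.Agent.A2.Alg Fermat.Agent.S35.H433

section

variable {R E F : Type} [CommRing R] [IsDomain R] [IsDiscreteValuationRing R]
  [HenselianLocalRing R] [IsAlgClosed (IsLocalRing.ResidueField R)]
  [Field E] [CharZero E] [Algebra R E] [IsFractionRing R E]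
  [Field F] [Algebra E F] [Algebra R F] [IsScalarTower R E F]

/-- **The toric relation for a swapping `φ`, valuation form, unconditional.** -/
theorem swapToricVal (w : R) (hw : Irreducible w) (q m : ℕ) (hq : q.Prime)
    (hqR : (q : R) ∈ IsLocalRing.maximalIdeal R) (hm : 0 < m) (hqm : ¬ q ∣ m)
    (x : F) (hx : Transcendental E x)
    (hfin : FiniteDimensional (IntermediateField.adjoin E ({x} : Set F)) F)
    (hconst : ∀ f : F, IsAlgebraic E f → f ∈ (algebraMap E F).range)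
    (Bf Bi : Subalgebra R F)
    (hBf : ∀ f : F, f ∈ Bf ↔ IsIntegral (Algebra.adjoin R ({x} : Set F)) f)
    (hBi : ∀ f : F, f ∈ Bi ↔ IsIntegral (Algebra.adjoin R ({x⁻¹} : Set F)) f)
    (cf : SSChart w Bf) (ci : SSChart w Bi)
    (V₁ V₂ : ValuationSubring F) (h₁ : ValCtx w x V₁) (h₂ : ValCtx w x V₂) (hne : V₁ ≠ V₂)
    (φ : F ≃+* F) (φE : E ≃+* E) (φR : R ≃+* R) (Q : ℕ) (hQ : 0 < Q)
    (hφE : ∀ e : E, φ (algebraMap E F e) = algebraMap E F (φE e))
    (hφER : ∀ r : R, φE (algebraMap R E r) = algebraMap R E (φR r))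
    (hfrob : ∀ r : R, ∃ s : R, φR r - r ^ Q = w * s)
    (hφx : φ x = x)
    (hV₁ : ∀ z : F, φ z ∈ V₁ ↔ z ∈ V₂) (hV₂ : ∀ z : F, φ z ∈ V₂ ↔ z ∈ V₁)
    (hfixf : ∀ n : Ideal Bf, n.IsMaximal → cf.p₁ ≤ n → cf.p₂ ≤ n →
      ∀ b : Bf, b ∈ n → ∀ hb : φ b ∈ Bf, (⟨φ b, hb⟩ : Bf) ∈ n)
    (hfixi : ∀ n : Ideal Bi, n.IsMaximal → ci.p₁ ≤ n → ci.p₂ ≤ n →
      ∀ b : Bi, b ∈ n → ∀ hb : φ b ∈ Bi, (⟨φ b, hb⟩ : Bi) ∈ n)
    (u : F) (hu : u ≠ 0) (hdiv : DivisibleDiv E m u)
    (hu₁ : GSplitV R V₁ m u) (hu₂ : GSplitV R V₂ m u) :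
    ∃ h : F, h ≠ 0 ∧ φ u * u ^ Q = h ^ m := by
  have hCf : ChartCtx E w x Bf := ⟨hw, hx, hfin, hconst, hBf⟩
  have hCi : ChartCtx E w x⁻¹ Bi := H34.chartCtx_inv w hw x hx hfin hconst Bi hBi
  exact swapToricVal_core w hw q m hq hqR hm hqm x hx hfin hconst Bf Bi hBf hBi cf ci V₁ V₂
    h₁ h₂ hne φ φE φR Q hQ hφE hφER hfrob hφx hV₁ hV₂ hfixf hfixi
    (fun v hv hdv hs n hn hwn =>
      Top.H96.purity_noSep q m hq hqR hm hqm w x Bf hCf cf v hv hdv hs n hn hwn)
    (fun v hv hdv hs n hn hwn =>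
      Top.H96.purity_noSep q m hq hqR hm hqm w x⁻¹ Bi hCi ci v hv hdv hs n hn hwn)
    (fun v hv hdv hf hi => Alg.H348.glue q m hq hqR hm hqm w x Bf Bi hCf hCi cf ci
      (H34.incomparable_of_ssChart cf) (H34.incomparable_of_ssChart ci) v hv hdv hf hi)
    u hu hdiv hu₁ hu₂

end

/-- **The toric relation for a swapping `φ`**, in the frozen-statement shape, unconditional. -/
theorem swapToricValStatement : SwapToricValStatement := by
  intro R E F _ _ _ _ _ _ _ _ _ _ _ _ _ w hw q m hq hqR hm hqm x hx hfin hconst Bf Bi hBf hBi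
    cf ci _ _ V₁ V₂ h₁ h₂ hne φ φE φR Q hQ hφE hφER hfrob hφx hV₁ hV₂ hfixf hfixi u hu hdiv
    hu₁ hu₂
  exact swapToricVal w hw q m hq hqR hm hqm x hx hfin hconst Bf Bi hBf hBi cf ci V₁ V₂
    h₁ h₂ hne φ φE φR Q hQ hφE hφER hfrob hφx hV₁ hV₂ hfixf hfixi u hu hdiv hu₁ hu₂

end Fermat.Agent.Ribet.H818
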