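import Fermat.Agent.Ribet.H818.SwapCut
import Fermat.Agent.Ribet.H279.FrickeSwap
import Fermat.Agent.S35.G.H862.Model
import Fermat.Agent.S35.G.H558.NodeRat
import Fermat.Agent.S35.G.H516.KronFrob
import Fermat.Agent.S35.G.H126.Stable
import Fermat.Agent.S35.G.H285.FrobRes
import Fermat.Agent.Ribet.H801.ALSwapGen

/-!
# Row RIBET, WALL-q, leaf FROB-AL — the LEVEL statement (helper818)

Instantiation of `H818.algFrobSwapU` (ALG-FROB for a component-swapping Frobenius) at a good level
`E ⊆ ℚ̄` for a place `A ∣ q`, stable under a Frobenius lift `s`: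
`F = F_E(M q) = A2.Mod.FE E (M * q)`, `σ = actE E (M * q) (resE E s hs)` the action of `s` on the
coefficients, `sw` an Atkin–Lehner swap of `F` (`sw ∘ α = β`, `sw ∘ β = α`), `ψ = σ ∘ sw`, `Q = q`.

* `nodeSwap`      : **NODE-SWAP** — every crossing point of the two components of the special
                    fibre is stable under `ψ = σ ∘ w_q` (mirror of `S35.G.H558.nodeRat`, which is
                    the same statement for `σ²`; here only Kronecker on `C∞` is needed:
                    `ψ (α a) = β (σ a) ≡ (α a) ^ q`).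
* `frobRes1`      : FROB-RES for `s` itself (`S35.G.FrobResStatement` is stated for `s²`).
* `levelFrobSwap` : **the level statement**, UNCONDITIONAL:
      for `y ≠ 0` in `F_E(M q)` with `m ∣ div y` whose residues at `V∞` and at `V₀ = V∞ ∘ W` are
      `m`-th powers (`S35.H433.PowVU`),   `σ (w_q y) · y ^ q = h ^ m`   for some `h ≠ 0`.
  In `J₀(M q)[m]`: `Frob_q (w_q x) + q x = 0` on the toric part, i.e. `Frob_q = - q · w_q`.
-/

set_option autoImplicit false
set_option linter.unusedSectionVars false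
set_option linter.unusedVariables false
set_option linter.style.haveILetI false
set_option synthInstance.maxHeartbeats 400000
set_option maxHeartbeats 1600000

noncomputable section

namespace Fermat.Agent.Ribet.H818

open ModularCurve HahnSeries
open Fermat.Agent.A2.Mod
open Fermat.Agent.S35.G (actE StableUnder CutBy NodeStable HasAux KronFrobStatement
  StableStatement)
open Fermat.Agent.S35.H433 (PowVU)

/-! ### The coefficient action and `β` -/

section Act

variable (E : IntermediateField ℚ Qb) (M q : ℕ) [NeZero M] [NeZero q]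

/-- `β` commutes with the action on the coefficients. -/
theorem beta_actE818 (t : E ≃ₐ[ℚ] E) (a : FE E M) :
    βE E M q (actE E M t a) = actE E (M * q) t (βE E M q a) := by
  apply Subtype.ext
  rw [coe_heckeBetaBar, coe_arithmeticRingAut_apply, coe_arithmeticRingAut_apply,
    coe_heckeBetaBar]
  exact (ModularCurve.coeffMap_qExpand _ _ _).symm

end Act

/-! ### NODE-SWAP -/

section Node

variable (A : ValuationSubring Qb) (E : IntermediateField ℚ Qb) (M q : ℕ) [NeZero M] [NeZero q]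
  (w : RE A E)

/-- `σ (w V₀) ⊆ w V₀` for `σ` in the decomposition group. -/
theorem inW_comap_actE818 (hSt : StableStatement A E) (N : ℕ) (hN : N ≠ 0)
    (hdvr : IsDiscreteValuationRing (RE A E)) (hw : Irreducible w)
    (V : ValuationSubring (FE E N)) (W : FE E N ≃ₐ[E] FE E N)
    (hV : IsVinf A E N V) (hW : IsFricke E N W)
    {s : Qb ≃ₐ[ℚ] Qb} (hs : StableUnder E s) (hsD : s ∈ A.decompositionSubgroup ℚ)
    {f : FE E N} (hf : InW A E N (V.comap (W : FE E N →+* FE E N)) w f) :
    InW A E N (V.comap (W : FE E N →+* FE E N)) w (actE E N (resE E s hs) f) := by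
  rw [H142.inW_comap_iff] at hf ⊢
  obtain ⟨hcomm, -⟩ := hSt N hN hdvr V W hV hW s hs hsD
  rw [← hcomm]
  exact Fermat.Agent.S35.G.H558.inW_actE A E w hSt N hN hdvr hw V W hV hW hs hsD hf

/-- **NODE-SWAP.**  The crossing points of the two components of the special fibre of the chart
`B = chartAlg y` (`y = x` or `x⁻¹`, `x = j · j_q`) are stable under `ψ = σ ∘ w_q`, `σ` the action
of a Frobenius lift on the coefficients, `w_q` an Atkin–Lehner swap. -/
theorem nodeSwap (hK : KronFrobStatement A E M q w) (hSt : StableStatement A E)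
    (hS : Setting A E M q w)
    (VM : ValuationSubring (FE E M)) (V : ValuationSubring (FE E (M * q)))
    (W : FE E (M * q) ≃ₐ[E] FE E (M * q))
    (hVM : IsVinf A E M VM) (hV : IsVinf A E (M * q) V) (hW : IsFricke E (M * q) W)
    (yM : FE E M) (y : FE E (M * q)) (hy : IsCoordPair E M q yM y)
    (hgoodM : GoodRedAt A E M w VM yM)
    (c : Fermat.Agent.A2.SSChart w (chartAlg A E (M * q) y))
    (hcut₁ : IsCut A E (M * q) w V (chartAlg A E (M * q) y) c.p₁)
    (hcut₂ : IsCut A E (M * q) w (V.comap (W : FE E (M * q) →+* FE E (M * q)))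
      (chartAlg A E (M * q) y) c.p₂)
    (sw : FE E (M * q) ≃+* FE E (M * q))
    (hswα : ∀ a : FE E M, sw (αE E M q a) = βE E M q a)
    (hswβ : ∀ a : FE E M, sw (βE E M q a) = αE E M q a)
    (s : Qb ≃ₐ[ℚ] Qb) (hs : StableUnder E s) (hFrob : A.IsFrobeniusAt s q) :
    NodeStable (chartAlg A E (M * q) y) c (sw.trans (actE E (M * q) (resE E s hs))) := by
  intro n _ hp₁ hp₂ b hbn b' hb'
  have hN : M * q ≠ 0 := Nat.mul_ne_zero hS.M_ne_zero hS.q_prime.ne_zero
  haveI : NeZero (M * q) := ⟨hN⟩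
  have hsD : s ∈ A.decompositionSubgroup ℚ := hFrob.mem_decompositionSubgroup
  -- step (e): `b ≡ α a mod p∞`
  obtain ⟨hBM, -, hαB, hsurj⟩ :=
    Fermat.Agent.S35.G.H558.surj_inf A E M q w hS VM V hVM hV yM y hy hgoodM
  obtain ⟨a, ha, hba⟩ := hsurj (b : FE E (M * q)) b.2
  -- the level-`M` chart is `σ`-stable
  have hσy : actE E M (resE E s hs) yM = yM := by
    rcases hy with ⟨rfl, -⟩ | ⟨rfl, -⟩
    · exact Fermat.Agent.S35.G.H558.actE_jE E M 1 (one_dvd _) _
    · rw [map_inv₀, Fermat.Agent.S35.G.H558.actE_jE]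
  obtain ⟨a₁, ha₁⟩ : ∃ a₁ : FE E M, a₁ = actE E M (resE E s hs) a := ⟨_, rfl⟩
  have ha₁B : a₁ ∈ chartAlg A E M yM :=
    ha₁ ▸ Fermat.Agent.S35.G.H558.chartAlg_actE A E M hs hsD yM hσy ha
  -- (K1) at `a`: `β (σ a) ≡ (α a) ^ q mod w V∞`
  have e1 : InW A E (M * q) V w (βE E M q a₁ - (αE E M q a) ^ q) := by
    rw [ha₁]
    exact hK hS VM V hVM hV s hs hFrob a (hBM a ha)
  -- `w_q (b - α a) ∈ w V₀`
  have e2 : InW A E (M * q) (V.comap (W : FE E (M * q) →+* FE E (M * q))) w
      (sw (b : FE E (M * q)) - βE E M q a) := by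
    have h1 := (Fermat.Agent.Ribet.H279.inW_swap_iff_inW_fricke
      (sw : FE E (M * q) →+* FE E (M * q)) hswα hswβ hS hV hW
      (sw (b : FE E (M * q)) - βE E M q a)).1
    apply h1
    have e : (sw : FE E (M * q) →+* FE E (M * q)) (sw (b : FE E (M * q)) - βE E M q a)
        = (b : FE E (M * q)) - αE E M q a := by
      show sw (sw (b : FE E (M * q)) - βE E M q a) = _
      rw [map_sub, hswβ]
      congr 1
      -- `sw (sw b) = b`
      exact Fermat.Agent.Ribet.H801.swap_involutive_gen (L := E) (M := M) (p := q) hS.q_prime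
        (sw : FE E (M * q) →+* FE E (M * q)) hswα hswβ _
    rw [e]
    exact hba
  -- `ψ b - β (σ a) ∈ w V₀`
  have e3 : InW A E (M * q) (V.comap (W : FE E (M * q) →+* FE E (M * q))) w
      ((b' : FE E (M * q)) - βE E M q a₁) := by
    have h1 := inW_comap_actE818 A E w hSt (M * q) hN hS.dvr hS.unif V W hV hW hs hsD e2
    rw [map_sub, ← beta_actE818, ← ha₁] at h1
    rw [hb']
    exact h1
  -- the computation in `B / n`
  have hαa : αE E M q a ∈ chartAlg A E (M * q) y := hαB a ha
  have hβa₁ : βE E M q a₁ ∈ chartAlg A E (M * q) y :=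
    Fermat.Agent.S35.G.H558.beta_mem_chartAlg A E M q w hS yM y hy ha₁B
  obtain ⟨ua, hua⟩ : ∃ u : chartAlg A E (M * q) y, (u : FE E (M * q)) = αE E M q a :=
    ⟨⟨_, hαa⟩, rfl⟩
  obtain ⟨ub, hub⟩ : ∃ u : chartAlg A E (M * q) y, (u : FE E (M * q)) = βE E M q a₁ :=
    ⟨⟨_, hβa₁⟩, rfl⟩
  have m1 : b - ua ∈ n := hp₁ ((hcut₁ _).2 (by
    rw [← hua] at hba
    exact hba))
  have m2 : ub - ua ^ q ∈ n := hp₁ ((hcut₁ _).2 (by
    rw [← hua, ← hub] at e1
    exact e1))
  have m3 : b' - ub ∈ n := hp₂ ((hcut₂ _).2 (by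
    rw [← hub] at e3
    exact e3))
  have m4 : ua ∈ n := by
    have : ua = b - (b - ua) := by ring
    rw [this]
    exact n.sub_mem hbn m1
  have m5 : ua ^ q ∈ n := n.pow_mem_of_mem m4 q hS.q_prime.pos
  have key : b' = (b' - ub) + (ub - ua ^ q) + ua ^ q := by ring
  rw [key]
  exact n.add_mem (n.add_mem m3 m2) m5

end Node

/-! ### FROB-RES for the Frobenius lift itself -/

section FrobRes

variable (A : ValuationSubring Qb) (E : IntermediateField ℚ Qb) (q : ℕ)

/-- **FROB-RES** for `s` (not `s²`): a Frobenius lift `s` at `A` stabilising `E` induces on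
`R_E = A ∩ E` an automorphism which is `r ↦ r ^ q` modulo the maximal ideal. -/
theorem frobRes1 (s : Qb ≃ₐ[ℚ] Qb) (hs : StableUnder E s) (hfrob : A.IsFrobeniusAt s q) :
    ∃ ψR : RE A E ≃+* RE A E,
      (∀ r : RE A E, (resE E s hs) (r : E) = ((ψR r : RE A E) : E)) ∧
      ∀ r : RE A E, ψR r - r ^ q ∈ IsLocalRing.maximalIdeal (RE A E) := by
  have hsD : s ∈ A.decompositionSubgroup ℚ := hfrob.mem_decompositionSubgroup
  have hsD' : s.symm ∈ A.decompositionSubgroup ℚ := inv_mem hsD
  have hsA : ∀ x : Qb, x ∈ A → s x ∈ A :=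
    fun x hx => Fermat.Agent.S35.G.H285.apply_mem_of_mem_decomp_h285 A hsD hx
  have hsA' : ∀ x : Qb, x ∈ A → s.symm x ∈ A :=
    fun x hx => Fermat.Agent.S35.G.H285.apply_mem_of_mem_decomp_h285 A hsD' hx
  have ht : ∀ e : E, (((resE E s hs) e : E) : Qb) = s (e : Qb) := fun _ => rfl
  have hts : ∀ e : E, (((resE E s hs).symm e : E) : Qb) = s.symm (e : Qb) := by
    intro e
    have h1 := ht ((resE E s hs).symm e)
    rw [AlgEquiv.apply_symm_apply] at h1
    rw [h1, AlgEquiv.symm_apply_apply]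
  have hmem : ∀ r : RE A E, (resE E s hs) (r : E) ∈ RE A E := by
    intro r
    show (((resE E s hs) (r : E) : E) : Qb) ∈ A
    rw [ht]
    exact hsA _ r.2
  have hmem' : ∀ r : RE A E, (resE E s hs).symm (r : E) ∈ RE A E := by
    intro r
    show (((resE E s hs).symm (r : E) : E) : Qb) ∈ A
    rw [hts]
    exact hsA' _ r.2
  refine ⟨{ toFun := fun r => ⟨(resE E s hs) (r : E), hmem r⟩
            invFun := fun r => ⟨(resE E s hs).symm (r : E), hmem' r⟩
            left_inv := fun r => Subtype.ext (AlgEquiv.symm_apply_apply _ _)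
            right_inv := fun r => Subtype.ext (AlgEquiv.apply_symm_apply _ _)
            map_mul' := fun a b => Subtype.ext (map_mul _ _ _)
            map_add' := fun a b => Subtype.ext (map_add _ _ _) }, fun r => rfl, ?_⟩
  intro r
  rw [Fermat.Agent.S35.G.H285.mem_maximalIdeal_RE_iff_h285,
    ValuationSubring.valuation_lt_one_iff]
  exact Fermat.Agent.S35.G.H285.frob_sub_pow_mem_h285 A hfrob (z := ((r : E) : Qb)) r.2

end FrobRes

/-! ### The level statement -/

section Level

variable (A : ValuationSubring Qb) (E : IntermediateField ℚ Qb) (M q m : ℕ) [NeZero M] [NeZero q]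

/-- **FROB-AL, level form** (UNCONDITIONAL).  `E` a good level for `A ∣ q`, stable under the
Frobenius lift `s`; `sw` an Atkin–Lehner swap of `F_E(M q)`; `V = V∞`, `W` the Fricke involution.
For every `y ≠ 0` with `m ∣ div y` whose residues at `V∞` and `V₀ = V∞ ∘ W` are `m`-th powers,
`σ (w_q y) · y ^ q` is an `m`-th power. -/
theorem levelFrobSwap (hq : q.Prime) (hqM : ¬ q ∣ M) (haux : HasAux M q) (hm : 0 < m)
    (hqm : ¬ q ∣ m) (hA : A.LiesOverPrime q) (hE : Fermat.Agent.A2.GoodField A E)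
    (sw : FE E (M * q) ≃+* FE E (M * q))
    (hswα : ∀ a : FE E M, sw (αE E M q a) = βE E M q a)
    (hswβ : ∀ a : FE E M, sw (βE E M q a) = αE E M q a)
    (s : Qb ≃ₐ[ℚ] Qb) (hs : StableUnder E s) (hsF : A.IsFrobeniusAt s q)
    (w : RE A E) (hw : Irreducible w)
    (V : ValuationSubring (FE E (M * q))) (W : FE E (M * q) ≃ₐ[E] FE E (M * q))
    (hV : IsVinf A E (M * q) V) (hW : IsFricke E (M * q) W)
    (y : FE E (M * q)) (hy : y ≠ 0) (hdiv : Fermat.Agent.A2.DivisibleDiv E m y)
    (hp₁ : PowVU w V m y)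
    (hp₂ : PowVU w (V.comap (W : FE E (M * q) →+* FE E (M * q))) m y) :
    ∃ h : FE E (M * q), h ≠ 0 ∧ actE E (M * q) (resE E s hs) (sw y) * y ^ q = h ^ m := by
  haveI : IsDiscreteValuationRing ↥(RE A E) := hE.dvr
  haveI : HenselianLocalRing ↥(RE A E) := hE.henselian
  haveI : IsAlgClosed (IsLocalRing.ResidueField ↥(RE A E)) := hE.algClosed
  have hS : Setting A E M q w :=
    { q_prime := hq
      q_not_dvd := hqM
      M_ne_zero := NeZero.ne M
      lies_over := hA
      dvr := hE.dvr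
      unif := hw }
  obtain ⟨V', W', VM, hV', hW', hVM, hg1, hg2, hDeg, cf, ci, hcf, hci⟩ :=
    Fermat.Agent.S35.G.H862.modelNoSep A E M q w hS hE haux
  -- `V' = V`, `V ∘ W' = V ∘ W`
  have hVV : V' = V := by
    ext f
    exact (hV' f).trans (hV f).symm
  subst hVV
  have hWW : V'.comap (W' : FE E (M * q) →+* FE E (M * q)) =
      V'.comap (W : FE E (M * q) →+* FE E (M * q)) := by
    rw [← Fermat.Agent.Ribet.H279.comap_swap_eq_comap_fricke
        (sw : FE E (M * q) →+* FE E (M * q)) hswα hswβ hS hV hW',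
      ← Fermat.Agent.Ribet.H279.comap_swap_eq_comap_fricke
        (sw : FE E (M * q) →+* FE E (M * q)) hswα hswβ hS hV hW]
  rw [← hWW] at hp₂
  obtain ⟨hx, hfr, hconst⟩ := hDeg hq hqM
  have hpos : 0 < Module.finrank
      (IntermediateField.adjoin E ({xE E M q} : Set (FE E (M * q))))
      (FE E (M * q)) := by
    rw [hfr]
    have h1 := dedekindPsi_pos_of_ne_zero M (NeZero.ne M)
    positivity
  have hfin : FiniteDimensional
      (IntermediateField.adjoin E ({xE E M q} : Set (FE E (M * q))))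
      (FE E (M * q)) := Module.finite_of_finrank_pos hpos
  obtain ⟨ψR, hψR, hQ⟩ := frobRes1 A E q s hs hsF
  have hsD : s ∈ A.decompositionSubgroup ℚ := hsF.mem_decompositionSubgroup
  have hN0 : M * q ≠ 0 := Nat.mul_ne_zero (NeZero.ne M) (NeZero.ne q)
  have hSt := Fermat.Agent.S35.G.H126.stable A E
  have hK := Fermat.Agent.S35.G.H516.kronFrob A E M q w
  obtain ⟨hcomm, hσV⟩ := hSt (M * q) hN0 hE.dvr V' W' hV hW' s hs hsD
  -- the swap exchanges `V∞` and `V₀`
  have hswinv : ∀ x : FE E (M * q), sw (sw x) = x :=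
    Fermat.Agent.Ribet.H801.swap_involutive_gen (L := E) (M := M) (p := q) hq
      (sw : FE E (M * q) →+* FE E (M * q)) hswα hswβ
  have hcs := Fermat.Agent.Ribet.H279.comap_swap_eq_comap_fricke
    (sw : FE E (M * q) →+* FE E (M * q)) hswα hswβ hS hV hW'
  have hsw₁ : ∀ f ∈ V', sw f ∈ V'.comap (W' : FE E (M * q) →+* FE E (M * q)) := by
    intro f hf
    rw [← hcs, ValuationSubring.mem_comap]
    show sw (sw f) ∈ V'
    rw [hswinv]
    exact hf
  have hsw₂ : ∀ f ∈ V'.comap (W' : FE E (M * q) →+* FE E (M * q)), sw f ∈ V' := by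
    intro f hf
    rw [← hcs, ValuationSubring.mem_comap] at hf
    exact hf
  -- `ψ = σ ∘ sw`
  set ψ : FE E (M * q) ≃+* FE E (M * q) := sw.trans (actE E (M * q) (resE E s hs)) with hψ
  have hψapp : ∀ f : FE E (M * q), ψ f = actE E (M * q) (resE E s hs) (sw f) := fun f => rfl
  have hψV₁ : ∀ f ∈ V', ψ f ∈ V'.comap (W' : FE E (M * q) →+* FE E (M * q)) := by
    intro f hf
    rw [hψapp]
    show W' (actE E (M * q) (resE E s hs) (sw f)) ∈ V'
    rw [← hcomm]
    exact hσV _ (hsw₁ f hf)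
  have hψV₂ : ∀ f ∈ V'.comap (W' : FE E (M * q) →+* FE E (M * q)), ψ f ∈ V' := by
    intro f hf
    rw [hψapp]
    exact hσV _ (hsw₂ f hf)
  -- semilinearity
  have hψE : ∀ e : E, ψ (algebraMap E (FE E (M * q)) e) =
      algebraMap E (FE E (M * q)) ((resE E s hs).toRingEquiv e) := by
    intro e
    rw [hψapp]
    have h' : sw (algebraMap E (FE E (M * q)) e) = algebraMap E (FE E (M * q)) e :=
      Fermat.Agent.Ribet.H279.swapE_algebraMap (sw : FE E (M * q) →+* FE E (M * q)) hswα e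
    rw [h']
    exact arithmeticRingAut_algebraMap (modularFunctionFieldFull (M * q)) _ e
  have hψRE : ∀ r : ↥(RE A E),
      (resE E s hs).toRingEquiv (algebraMap ↥(RE A E) E r) =
        algebraMap ↥(RE A E) E (ψR r) := fun r => hψR r
  have hψx : ψ (xE E M q) = xE E M q := by
    rw [hψapp]
    have h' : sw (xE E M q) = xE E M q :=
      Fermat.Agent.Ribet.H279.swapE_xE (sw : FE E (M * q) →+* FE E (M * q)) hswα hswβ
    rw [h']
    exact Fermat.Agent.S35.G.H126.coord E M q _
  have hnf := nodeSwap A E M q w hK hSt hS VM V' W' hVM hV hW' _ _ (Or.inl ⟨rfl, rfl⟩) hg1 cf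
    hcf.cut₁ hcf.cut₂ sw hswα hswβ s hs hsF
  have hni := nodeSwap A E M q w hK hSt hS VM V' W' hVM hV hW' _ _ (Or.inr ⟨rfl, rfl⟩) hg2 ci
    hci.cut₁ hci.cut₂ sw hswα hswβ s hs hsF
  obtain ⟨z, hz, hzz⟩ := algFrobSwapU (R := ↥(RE A E)) (E := E) (F := ↥(FE E (M * q)))
    w hw q m q hq (Fermat.Agent.A2.T1.H669.natCast_mem_maximalIdeal_RE E hA) hm hqm
    (xE E M q) hx hfin hconst
    (chartAlg A E (M * q) (xE E M q))
    (chartAlg A E (M * q) (xE E M q)⁻¹)
    (fun _ => Iff.rfl) (fun _ => Iff.rfl) cf ci V'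
    (V'.comap (W' : FE E (M * q) →+* FE E (M * q))) hcf hci
    ψ (resE E s hs).toRingEquiv ψR
    hψE hψRE hψx hQ hψV₁ hψV₂ hnf hni y hy hdiv hp₁ hp₂
  exact ⟨z, hz, hzz⟩

end Level

end Fermat.Agent.Ribet.H818

end
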