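import Fermat.Agent.Ribet.H818.SwapAsm
import Fermat.Agent.S35.H433.ValForm
import Fermat.Agent.A2.Alg.H348.Roots

/-!
# Row RIBET, WALL-q — the toric relation for a component-SWAPPING Frobenius (helper818)

Mirror of `S35/H433/{FrobToric,Final,ValForm}.lean` (helper433).  Setting of the A2 wall
(`Fermat/Agent/A2/Alg`): `R` a henselian DVR with algebraically closed residue field of
characteristic `q`, two semistable charts `Bf`, `Bi`, the two components given by two valuation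
subrings `V₁ ≠ V₂` of `F` (A2/MOD: `V∞`, `V₀`).  Let `φ` be a semilinear automorphism of `F` which

* fixes the coordinate `x`, acts on the constants as the `Q`-power map modulo `w`,
* **swaps** `V₁` and `V₂`,
* fixes every crossing point of the two charts.

Then every toric Kummer class `u` (`m ∣ div u`, residues at `V₁`, `V₂` in `kˣ · (κˣ)^m`, `q ∤ m`)
satisfies

    φ u · u ^ Q = h ^ m .

Model case: `φ = σ ∘ w_q`, `σ` a Frobenius lift at `q ‖ N`, `w_q` the Atkin–Lehner involution,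
`Q = q`; the conclusion says that `Frob = -q · w_q` on the toric part of `J₀(N)[m]`
(Mazur's principle: `Frob_q` acts on the toric part through `q · U_q`, `U_q = -w_q`).

* `swapToric_of_parts`   : chart form, constants explicit;
* `SwapToricValStatement`, `swapToricVal_of_leaves` : valuation form, from the three leaves of the
  A2 wall (PURITY P-S, P-N and GLUE, all three proved on main).
-/

set_option autoImplicit false
set_option linter.unusedSectionVars false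

namespace Fermat.Agent.Ribet.H818

open Fermat.Agent.A2 Fermat.Agent.A2.Alg Fermat.Agent.A2.H348 Fermat.Agent.A2.Alg.H348
open Fermat.Agent.S35.H433

section Div

variable {E F : Type*} [Field E] [Field F] [Algebra E F]

theorem divisibleDiv_mul818 (m : ℕ) (f g : F) (hf : DivisibleDiv E m f)
    (hg : DivisibleDiv E m g) : DivisibleDiv E m (f * g) := by
  intro V hV hE
  obtain ⟨h₁, u₁, hh₁, hu₁, hu₁', rfl⟩ := hf V hV hE
  obtain ⟨h₂, u₂, hh₂, hu₂, hu₂', rfl⟩ := hg V hV hE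
  refine ⟨h₁ * h₂, u₁ * u₂, mul_ne_zero hh₁ hh₂, V.mul_mem _ _ hu₁ hu₂, ?_, ?_⟩
  · rw [mul_inv]
    exact V.mul_mem _ _ hu₁' hu₂'
  · rw [mul_pow]
    ring

theorem divisibleDiv_const818 (m : ℕ) (e : E) :
    DivisibleDiv E m (algebraMap E F e) := by
  intro V _ hE
  refine ⟨1, algebraMap E F e, one_ne_zero, hE e, ?_, by rw [one_pow, mul_one]⟩
  rw [← map_inv₀]
  exact hE _

end Div

section Parts

variable {R E F : Type*} [CommRing R] [Field E] [Field F] [Algebra E F] [Algebra R F]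
  [Algebra R E] [IsScalarTower R E F]

/-- Local factorisations of `φ u · u ^ Q / (c₁ c₂) ^ Q` at all closed points of one chart. -/
theorem locallyFactored_swap {w : R} (B : Subalgebra R F) (c : SSChart w B)
    (φ : F ≃+* F) (Q : ℕ) (hQ : 0 < Q) (hφ : SwapCtx w B c φ Q) (m : ℕ) (hm : 0 < m)
    (hk : ∀ n : Ideal B, n.IsMaximal → c.p₁ ≤ n → c.p₂ ≤ n →
      ∀ b : B, ∃ r : R, b - algebraMap R B r ∈ n)
    (hfix : ∀ n : Ideal B, n.IsMaximal → c.p₁ ≤ n → c.p₂ ≤ n →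
      ∀ b : B, b ∈ n → hφ.hom b ∈ n)
    (htr : ∀ n : Ideal B, n.IsMaximal → c.p₁ ≤ n → c.p₂ ≤ n →
      ∀ b : B, b ∈ n → ∃ s : B, s ∉ n ∧ s * b ∈ c.p₁ ⊔ c.p₂)
    (u : F) (hu : u ≠ 0) {c₁ c₂ : R} (hc₁ : IsUnit c₁) (hc₂ : IsUnit c₂)
    (hu₁ : InLoc B c.p₁ c.p₁ (u - algebraMap R F c₁))
    (hu₂ : InLoc B c.p₂ c.p₂ (u - algebraMap R F c₂))
    (hpur : ∀ n : Ideal B, n.IsMaximal → algebraMap R B w ∈ n → PureAt B c m u n) :
    LocallyFactored B c m (φ u * u ^ Q * (algebraMap R F (c₁ * c₂) ^ Q)⁻¹) := by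
  intro n hn hwn
  have hn' : (n.comap hφ.hom).IsMaximal :=
    Ideal.comap_isMaximal_of_surjective hφ.hom hφ.hom_surjective
  exact localFactor_swap_of_pureAt w B c φ Q hφ m hm u hu hc₁ hc₂ hu₁ hu₂ n hn hwn (hk n hn)
    (hfix n hn) (htr n hn) (hpur _ hn' (hφ.w_mem_comap hQ hwn)) (hpur n hn hwn)

/-- Either labelling of the two constants. -/
theorem locallyFactored_swap' {w : R} (B : Subalgebra R F) (c : SSChart w B)
    (φ : F ≃+* F) (Q : ℕ) (hQ : 0 < Q) (hφ : SwapCtx w B c φ Q) (m : ℕ) (hm : 0 < m)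
    (hk : ∀ n : Ideal B, n.IsMaximal → c.p₁ ≤ n → c.p₂ ≤ n →
      ∀ b : B, ∃ r : R, b - algebraMap R B r ∈ n)
    (hfix : ∀ n : Ideal B, n.IsMaximal → c.p₁ ≤ n → c.p₂ ≤ n →
      ∀ b : B, b ∈ n → hφ.hom b ∈ n)
    (htr : ∀ n : Ideal B, n.IsMaximal → c.p₁ ≤ n → c.p₂ ≤ n →
      ∀ b : B, b ∈ n → ∃ s : B, s ∉ n ∧ s * b ∈ c.p₁ ⊔ c.p₂)
    (u : F) (hu : u ≠ 0) {c₁ c₂ : R} (hc₁ : IsUnit c₁) (hc₂ : IsUnit c₂)
    (hcs : (InLoc B c.p₁ c.p₁ (u - algebraMap R F c₁) ∧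
        InLoc B c.p₂ c.p₂ (u - algebraMap R F c₂)) ∨
      (InLoc B c.p₁ c.p₁ (u - algebraMap R F c₂) ∧
        InLoc B c.p₂ c.p₂ (u - algebraMap R F c₁)))
    (hpur : ∀ n : Ideal B, n.IsMaximal → algebraMap R B w ∈ n → PureAt B c m u n) :
    LocallyFactored B c m (φ u * u ^ Q * (algebraMap R F (c₁ * c₂) ^ Q)⁻¹) := by
  rcases hcs with ⟨h1, h2⟩ | ⟨h1, h2⟩
  · exact locallyFactored_swap B c φ Q hQ hφ m hm hk hfix htr u hu hc₁ hc₂ h1 h2 hpur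
  · have := locallyFactored_swap B c φ Q hQ hφ m hm hk hfix htr u hu hc₂ hc₁ h1 h2 hpur
    rwa [mul_comm c₂ c₁] at this

/-- **The toric relation for a swapping `φ`, chart form.**  `u ≡ c₁`, `c₂` on the two components
of both charts, `m ∣ div u`  ⟹  `φ u · u ^ Q = (c₁ c₂) ^ Q · h ^ m`. -/
theorem swapToric_of_parts (m : ℕ) (hm : 0 < m) (w : R) (Bf Bi : Subalgebra R F)
    (cf : SSChart w Bf) (ci : SSChart w Bi)
    (φ : F ≃+* F) (φE : E ≃+* E) (Q : ℕ) (hQ : 0 < Q)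
    (hφE : ∀ e : E, φ (algebraMap E F e) = algebraMap E F (φE e))
    (hφf : SwapCtx w Bf cf φ Q) (hφi : SwapCtx w Bi ci φ Q)
    (hkf : ∀ n : Ideal Bf, n.IsMaximal → cf.p₁ ≤ n → cf.p₂ ≤ n →
      ∀ b : Bf, ∃ r : R, b - algebraMap R Bf r ∈ n)
    (hki : ∀ n : Ideal Bi, n.IsMaximal → ci.p₁ ≤ n → ci.p₂ ≤ n →
      ∀ b : Bi, ∃ r : R, b - algebraMap R Bi r ∈ n)
    (hfixf : ∀ n : Ideal Bf, n.IsMaximal → cf.p₁ ≤ n → cf.p₂ ≤ n →
      ∀ b : Bf, b ∈ n → hφf.hom b ∈ n)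
    (hfixi : ∀ n : Ideal Bi, n.IsMaximal → ci.p₁ ≤ n → ci.p₂ ≤ n →
      ∀ b : Bi, b ∈ n → hφi.hom b ∈ n)
    (htrf : ∀ n : Ideal Bf, n.IsMaximal → cf.p₁ ≤ n → cf.p₂ ≤ n →
      ∀ b : Bf, b ∈ n → ∃ s : Bf, s ∉ n ∧ s * b ∈ cf.p₁ ⊔ cf.p₂)
    (htri : ∀ n : Ideal Bi, n.IsMaximal → ci.p₁ ≤ n → ci.p₂ ≤ n →
      ∀ b : Bi, b ∈ n → ∃ s : Bi, s ∉ n ∧ s * b ∈ ci.p₁ ⊔ ci.p₂)
    (u : F) (hu : u ≠ 0) (hdiv : DivisibleDiv E m u)
    {c₁ c₂ : R} (hc₁ : IsUnit c₁) (hc₂ : IsUnit c₂)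
    (hcf : (InLoc Bf cf.p₁ cf.p₁ (u - algebraMap R F c₁) ∧
        InLoc Bf cf.p₂ cf.p₂ (u - algebraMap R F c₂)) ∨
      (InLoc Bf cf.p₁ cf.p₁ (u - algebraMap R F c₂) ∧
        InLoc Bf cf.p₂ cf.p₂ (u - algebraMap R F c₁)))
    (hci : (InLoc Bi ci.p₁ ci.p₁ (u - algebraMap R F c₁) ∧
        InLoc Bi ci.p₂ ci.p₂ (u - algebraMap R F c₂)) ∨
      (InLoc Bi ci.p₁ ci.p₁ (u - algebraMap R F c₂) ∧
        InLoc Bi ci.p₂ ci.p₂ (u - algebraMap R F c₁)))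
    (hpurf : ∀ n : Ideal Bf, n.IsMaximal → algebraMap R Bf w ∈ n → PureAt Bf cf m u n)
    (hpuri : ∀ n : Ideal Bi, n.IsMaximal → algebraMap R Bi w ∈ n → PureAt Bi ci m u n)
    (hglue : ∀ v : F, v ≠ 0 → DivisibleDiv E m v → LocallyFactored Bf cf m v →
      LocallyFactored Bi ci m v → ∃ y : F, y ≠ 0 ∧ v = y ^ m) :
    ∃ h : F, h ≠ 0 ∧ φ u * u ^ Q = algebraMap R F (c₁ * c₂) ^ Q * h ^ m := by
  have hφu : φ u ≠ 0 := (map_ne_zero φ).2 hu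
  have huQ : u ^ Q ≠ 0 := pow_ne_zero _ hu
  have hp₁ := cf.prime₁
  have hC0 : algebraMap R F (c₁ * c₂) ^ Q ≠ 0 :=
    locUnit_ne_zero (n := cf.p₁) (locUnit_pow (locUnit_const (hc₁.mul hc₂)) Q)
  have hv : φ u * u ^ Q * (algebraMap R F (c₁ * c₂) ^ Q)⁻¹ ≠ 0 :=
    mul_ne_zero (mul_ne_zero hφu huQ) (inv_ne_zero hC0)
  have hCE : algebraMap R F (c₁ * c₂) ^ Q = algebraMap E F (algebraMap R E (c₁ * c₂) ^ Q) := by
    rw [map_pow, ← IsScalarTower.algebraMap_apply]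
  have hCE0 : algebraMap R E (c₁ * c₂) ^ Q ≠ 0 := by
    intro h0
    apply hC0
    rw [hCE, h0, map_zero]
  have hdivv : DivisibleDiv E m (φ u * u ^ Q * (algebraMap R F (c₁ * c₂) ^ Q)⁻¹) := by
    rw [hCE]
    exact H34.divisibleDiv_mul_inv m _ _
      (divisibleDiv_mul818 m _ _ (H34.divisibleDiv_tau φ φE hφE m u hdiv)
        (divisibleDiv_pow m u hdiv Q))
      (divisibleDiv_const818 m _)
  obtain ⟨y, hy, hyv⟩ := hglue _ hv hdivv
    (locallyFactored_swap' Bf cf φ Q hQ hφf m hm hkf hfixf htrf u hu hc₁ hc₂ hcf hpurf)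
    (locallyFactored_swap' Bi ci φ Q hQ hφi m hm hki hfixi htri u hu hc₁ hc₂ hci hpuri)
  refine ⟨y, hy, ?_⟩
  rw [← hyv, mul_comm (algebraMap R F (c₁ * c₂) ^ Q), mul_assoc, inv_mul_cancel₀ hC0, mul_one]

end Parts

section Swap

variable {R F : Type*} [CommRing R] [Field F] [Algebra R F]

/-- `φ` mapping `V'` onto `V` maps the non-units of `V'` onto those of `V`. -/
theorem swap_mem_nonunits_iff (φ : F ≃+* F) (V V' : ValuationSubring F)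
    (hV : ∀ z : F, φ z ∈ V ↔ z ∈ V') (z : F) : φ z ∈ V.nonunits ↔ z ∈ V'.nonunits := by
  rw [ValuationSubring.mem_nonunits_iff_or, ValuationSubring.mem_nonunits_iff_or, ← map_inv₀, hV,
    map_eq_zero_iff φ φ.injective]

/-- `z ≡ c₀ mod 𝔪_V` for a unit constant. -/
theorem constV_iff818 {V : ValuationSubring F} {u : F} :
    ConstV R V u ↔ ∃ c₀ : R, IsUnit c₀ ∧ u - algebraMap R F c₀ ∈ V.nonunits := Iff.rfl

end Swap

section Main

variable {R E F : Type*} [CommRing R] [IsDomain R] [IsDiscreteValuationRing R]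
  [IsAlgClosed (IsLocalRing.ResidueField R)]
  [Field E] [CharZero E] [Algebra R E] [IsFractionRing R E]
  [Field F] [Algebra E F] [Algebra R F] [IsScalarTower R E F]

/-- `φ` swapping `V₁` and `V₂` swaps the components of a chart. -/
theorem swapCtx_of_val (w : R) (x : F) (B : Subalgebra R F) (hB : ChartCtx E w x B)
    (c : SSChart w B) (V₁ V₂ : ValuationSubring F) (h₁ : ValCtx w x V₁) (h₂ : ValCtx w x V₂)
    (hne : V₁ ≠ V₂) (φ : F ≃+* F) (φR : R ≃+* R) (Q : ℕ)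
    (hφR : ∀ r : R, φ (algebraMap R F r) = algebraMap R F (φR r))
    (hQ : ∀ r : R, ∃ s : R, φR r - r ^ Q = w * s) (hφx : φ x = x)
    (hV₁ : ∀ z : F, φ z ∈ V₁ ↔ z ∈ V₂) (hV₂ : ∀ z : F, φ z ∈ V₂ ↔ z ∈ V₁) :
    SwapCtx w B c φ Q := by
  have hp₁ := c.prime₁
  have hp₂ := c.prime₂
  have hmap : ∀ b : F, b ∈ B → φ b ∈ B := fun b hb => phi_mem_chart φ φR hφR hφx B hB.hB hb
  have hφR' : ∀ r : R, φ.symm (algebraMap R F r) = algebraMap R F (φR.symm r) := by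
    intro r
    rw [RingEquiv.symm_apply_eq, hφR, RingEquiv.apply_symm_apply]
  have hφx' : φ.symm x = x := by
    rw [RingEquiv.symm_apply_eq, hφx]
  have hmap' : ∀ b : F, φ b ∈ B → b ∈ B := fun b hb => by
    have := phi_mem_chart φ.symm φR.symm hφR' hφx' B hB.hB hb
    rwa [RingEquiv.symm_apply_apply] at this
  have e : ∀ (p : Ideal B) [p.IsPrime] (V : ValuationSubring F),
      (∀ z : F, z ∈ V.nonunits ↔ InLoc B p p z) → ∀ b' : B, b' ∈ p ↔ (b' : F) ∈ V.nonunits := by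
    intro p _ V d b'
    rw [d]
    constructor
    · intro hb'
      exact inLoc_coe hb'
    · rintro ⟨a, s, ha, hs, has⟩
      have h1 : b' * s = a := Subtype.ext (by push_cast; exact has)
      have h2 : b' * s ∈ p := by rw [h1]; exact ha
      exact (‹p.IsPrime›.mem_or_mem h2).resolve_right hs
  have key : ∀ (p p' : Ideal B) [p.IsPrime] [p'.IsPrime] (V V' : ValuationSubring F),
      (∀ z : F, φ z ∈ V ↔ z ∈ V') → (∀ z : F, z ∈ V.nonunits ↔ InLoc B p p z) →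
      (∀ z : F, z ∈ V'.nonunits ↔ InLoc B p' p' z) →
      ∀ b : B, (⟨φ b, hmap b b.2⟩ : B) ∈ p ↔ b ∈ p' := by
    intro p p' _ _ V V' hV d d' b
    rw [e p V d, e p' V' d']
    exact swap_mem_nonunits_iff φ V V' hV _
  refine ⟨hmap, hmap', ?_, ?_, ?_⟩
  · rcases exists_dict w x B hB c V₁ V₂ h₁ h₂ hne with ⟨⟨-, d₁⟩, ⟨-, d₂⟩⟩ | ⟨⟨-, d₁⟩, ⟨-, d₂⟩⟩
    · exact key c.p₁ c.p₂ V₁ V₂ hV₁ d₁ d₂
    · exact key c.p₁ c.p₂ V₂ V₁ hV₂ d₂ d₁
  · rcases exists_dict w x B hB c V₁ V₂ h₁ h₂ hne with ⟨⟨-, d₁⟩, ⟨-, d₂⟩⟩ | ⟨⟨-, d₁⟩, ⟨-, d₂⟩⟩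
    · exact key c.p₂ c.p₁ V₂ V₁ hV₂ d₂ d₁
    · exact key c.p₂ c.p₁ V₁ V₂ hV₁ d₁ d₂
  · intro r
    obtain ⟨s, hs⟩ := hQ r
    refine ⟨algebraMap R B s, ?_⟩
    rw [hφR, ← map_pow, ← map_sub, hs, map_mul]
    rfl

/-- Constants at `V₁`, `V₂`  ⟹  constants on the components of any chart, in some order. -/
theorem inLoc_of_constV (w : R) (x : F) (B : Subalgebra R F) (hB : ChartCtx E w x B)
    (c : SSChart w B) (V₁ V₂ : ValuationSubring F) (h₁ : ValCtx w x V₁) (h₂ : ValCtx w x V₂)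
    (hne : V₁ ≠ V₂) {u : F} {c₁ c₂ : R}
    (hu₁ : u - algebraMap R F c₁ ∈ V₁.nonunits) (hu₂ : u - algebraMap R F c₂ ∈ V₂.nonunits) :
    (InLoc B c.p₁ c.p₁ (u - algebraMap R F c₁) ∧ InLoc B c.p₂ c.p₂ (u - algebraMap R F c₂)) ∨
    (InLoc B c.p₁ c.p₁ (u - algebraMap R F c₂) ∧ InLoc B c.p₂ c.p₂ (u - algebraMap R F c₁)) := by
  rcases exists_dict w x B hB c V₁ V₂ h₁ h₂ hne with ⟨⟨-, d₁⟩, ⟨-, d₂⟩⟩ | ⟨⟨-, d₁⟩, ⟨-, d₂⟩⟩
  · exact Or.inl ⟨(d₁ _).1 hu₁, (d₂ _).1 hu₂⟩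
  · exact Or.inr ⟨(d₂ _).1 hu₂, (d₁ _).1 hu₁⟩

end Main

section Root

open Polynomial IsLocalRing

variable {R : Type*} [CommRing R] [HenselianLocalRing R]
  [IsAlgClosed (ResidueField R)]

/-- In a henselian local ring with algebraically closed residue field of characteristic `q ∤ m`
every unit is an `m`-th power. -/
theorem exists_pow_eq_of_isUnit818 (q m : ℕ) (hq : q.Prime) (hqR : (q : R) ∈ maximalIdeal R)
    (hm : 0 < m) (hqm : ¬ q ∣ m) {C₀ : R} (hC : IsUnit C₀) : ∃ r : R, IsUnit r ∧ r ^ m = C₀ := by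
  have hmk := natCast_residue_ne_zero (R := R) q m hq hqR hqm
  have hC0 : residue R C₀ ≠ 0 := by
    intro h
    rw [residue_eq_zero_iff] at h
    exact (IsLocalRing.notMem_maximalIdeal.mpr hC) h
  obtain ⟨z₀, hz₀⟩ := IsAlgClosed.exists_pow_nat_eq (residue R C₀) hm
  have hz₀0 : z₀ ≠ 0 := by
    rintro rfl
    rw [zero_pow hm.ne'] at hz₀
    exact hC0 hz₀.symm
  obtain ⟨r, hr, hres⟩ := Fermat.Agent.A2.H552.exists_root_of_residue_simple_root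
    (X ^ m - C C₀) (monic_X_pow_sub_C C₀ hm.ne') z₀
    (by simp [hz₀])
    (by
      simp only [Polynomial.map_sub, Polynomial.map_pow, map_X, map_C, derivative_sub,
        derivative_X_pow, derivative_C, sub_zero, eval_mul, eval_C, eval_pow, eval_X]
      exact mul_ne_zero hmk (pow_ne_zero _ hz₀0))
  have hpow : r ^ m = C₀ := by
    have : (X ^ m - C C₀ : R[X]).eval r = 0 := hr
    simpa [sub_eq_zero] using this
  refine ⟨r, ?_, hpow⟩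
  rw [← IsLocalRing.notMem_maximalIdeal]
  intro h
  apply hz₀0
  rw [← hres]
  exact (residue_eq_zero_iff _).mpr h

end Root

section Core

variable {R E F : Type*} [CommRing R] [IsDomain R] [IsDiscreteValuationRing R]
  [HenselianLocalRing R] [IsAlgClosed (IsLocalRing.ResidueField R)]
  [Field E] [CharZero E] [Algebra R E] [IsFractionRing R E]
  [Field F] [Algebra E F] [Algebra R F] [IsScalarTower R E F]

/-- **Core of the valuation form**: the toric relation for a swapping `φ`, with PURITY (for split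
classes, on both charts) and GLUE as hypotheses. -/
theorem swapToricVal_core (w : R) (hw : Irreducible w) (q m : ℕ) (hq : q.Prime)
    (hqR : (q : R) ∈ IsLocalRing.maximalIdeal R) (hm : 0 < m) (hqm : ¬ q ∣ m)
    (x : F) (hx : Transcendental E x)
    (hfin : FiniteDimensional (IntermediateField.adjoin E ({x} : Set F)) F)
    (hconst : ∀ f : F, IsAlgebraic E f → f ∈ (algebraMap E F).range)
    (Bf Bi : Subalgebra R F)
    (hBf : ∀ f : F, f ∈ Bf ↔ IsIntegral (Algebra.adjoin R ({x} : Set F)) f)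
    (hBi : ∀ f : F, f ∈ Bi ↔ IsIntegral (Algebra.adjoin R ({x⁻¹} : Set F)) f)
    (cf : SSChart w Bf) (ci : SSChart w Bi)
    (V₁ V₂ : ValuationSubring F) (h₁ : ValCtx w x V₁) (h₂ : ValCtx w x V₂) (hne : V₁ ≠ V₂)
    (φ : F ≃+* F) (φE : E ≃+* E) (φR : R ≃+* R) (Q : ℕ) (hQ : 0 < Q)
    (hφE : ∀ e : E, φ (algebraMap E F e) = algebraMap E F (φE e))
    (hφER : ∀ r : R, φE (algebraMap R E r) = algebraMap R E (φR r))
    (hfrob : ∀ r : R, ∃ s : R, φR r - r ^ Q = w * s)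
    (hφx : φ x = x)
    (hV₁ : ∀ z : F, φ z ∈ V₁ ↔ z ∈ V₂) (hV₂ : ∀ z : F, φ z ∈ V₂ ↔ z ∈ V₁)
    (hfixf : ∀ n : Ideal Bf, n.IsMaximal → cf.p₁ ≤ n → cf.p₂ ≤ n →
      ∀ b : Bf, b ∈ n → ∀ hb : φ b ∈ Bf, (⟨φ b, hb⟩ : Bf) ∈ n)
    (hfixi : ∀ n : Ideal Bi, n.IsMaximal → ci.p₁ ≤ n → ci.p₂ ≤ n →
      ∀ b : Bi, b ∈ n → ∀ hb : φ b ∈ Bi, (⟨φ b, hb⟩ : Bi) ∈ n)
    (hpurf : ∀ v : F, v ≠ 0 → DivisibleDiv E m v → IsSplit Bf cf v →
      ∀ n : Ideal Bf, n.IsMaximal → algebraMap R Bf w ∈ n → PureAt Bf cf m v n)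
    (hpuri : ∀ v : F, v ≠ 0 → DivisibleDiv E m v → IsSplit Bi ci v →
      ∀ n : Ideal Bi, n.IsMaximal → algebraMap R Bi w ∈ n → PureAt Bi ci m v n)
    (hglue : ∀ v : F, v ≠ 0 → DivisibleDiv E m v → LocallyFactored Bf cf m v →
      LocallyFactored Bi ci m v → ∃ y : F, y ≠ 0 ∧ v = y ^ m)
    (u : F) (hu : u ≠ 0) (hdiv : DivisibleDiv E m u)
    (hu₁ : GSplitV R V₁ m u) (hu₂ : GSplitV R V₂ m u) :
    ∃ h : F, h ≠ 0 ∧ φ u * u ^ Q = h ^ m := by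
  have hCf : ChartCtx E w x Bf := ⟨hw, hx, hfin, hconst, hBf⟩
  have hCi : ChartCtx E w x⁻¹ Bi := H34.chartCtx_inv w hw x hx hfin hconst Bi hBi
  have hφR : ∀ r : R, φ (algebraMap R F r) = algebraMap R F (φR r) := by
    intro r
    rw [IsScalarTower.algebraMap_apply R E F, hφE, hφER, ← IsScalarTower.algebraMap_apply]
  have hφxi : φ x⁻¹ = x⁻¹ := by rw [map_inv₀, hφx]
  have hφf : SwapCtx w Bf cf φ Q :=
    swapCtx_of_val w x Bf hCf cf V₁ V₂ h₁ h₂ hne φ φR Q hφR hfrob hφx hV₁ hV₂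
  have hφi : SwapCtx w Bi ci φ Q :=
    swapCtx_of_val w x⁻¹ Bi hCi ci V₁ V₂ h₁.inv h₂.inv hne φ φR Q hφR hfrob hφxi hV₁ hV₂
  obtain ⟨G, hG0, hc₁, hc₂⟩ := exists_constV_of_gSplitV w x Bf hCf cf V₁ V₂ h₁ h₂ hne hu₁ hu₂
  obtain ⟨c₁, hc₁u, hc₁n⟩ := hc₁
  obtain ⟨c₂, hc₂u, hc₂n⟩ := hc₂
  have hGm : G ^ m ≠ 0 := pow_ne_zero _ hG0
  have hu' : u * (G ^ m)⁻¹ ≠ 0 := mul_ne_zero hu (inv_ne_zero hGm)
  have hsf : IsSplit Bf cf (u * (G ^ m)⁻¹) :=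
    isSplit_of_constV w x Bf hCf cf V₁ V₂ h₁ h₂ hne ⟨c₁, hc₁u, hc₁n⟩ ⟨c₂, hc₂u, hc₂n⟩
  have hsi : IsSplit Bi ci (u * (G ^ m)⁻¹) :=
    isSplit_of_constV w x⁻¹ Bi hCi ci V₁ V₂ h₁.inv h₂.inv hne ⟨c₁, hc₁u, hc₁n⟩
      ⟨c₂, hc₂u, hc₂n⟩
  have hdiv' := divisibleDiv_mul_inv_pow (E := E) m u G hG0 hdiv
  obtain ⟨h, hh, hrel⟩ := swapToric_of_parts (E := E) m hm w Bf Bi cf ci φ φE Q hQ hφE hφf hφi
    (fun n hn _ _ b => exists_const_sub_mem w x Bf hCf n hn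
      ((Ideal.span_singleton_le_iff_mem (I := n)).1
        (by rw [← cf.inf_eq]; exact inf_le_left.trans ‹cf.p₁ ≤ n›)) b)
    (fun n hn _ _ b => exists_const_sub_mem w x⁻¹ Bi hCi n hn
      ((Ideal.span_singleton_le_iff_mem (I := n)).1
        (by rw [← ci.inf_eq]; exact inf_le_left.trans ‹ci.p₁ ≤ n›)) b)
    (fun n hn h1 h2 b hb => hfixf n hn h1 h2 b hb _)
    (fun n hn h1 h2 b hb => hfixi n hn h1 h2 b hb _)
    (fun n hn h1 h2 b hb => exists_mul_mem_sup w x Bf hCf cf n hn h1 h2 b hb)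
    (fun n hn h1 h2 b hb => exists_mul_mem_sup w x⁻¹ Bi hCi ci n hn h1 h2 b hb)
    (u * (G ^ m)⁻¹) hu' hdiv' hc₁u hc₂u
    (inLoc_of_constV w x Bf hCf cf V₁ V₂ h₁ h₂ hne hc₁n hc₂n)
    (inLoc_of_constV w x⁻¹ Bi hCi ci V₁ V₂ h₁.inv h₂.inv hne hc₁n hc₂n)
    (hpurf _ hu' hdiv' hsf) (hpuri _ hu' hdiv' hsi) hglue
  -- absorb the constant
  obtain ⟨r, hr, hrC⟩ := exists_pow_eq_of_isUnit818 q m hq hqR hm hqm
    ((hc₁u.mul hc₂u).pow Q)
  have hr0 : algebraMap R F r ≠ 0 := by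
    have hp₁ := cf.prime₁
    exact locUnit_ne_zero (n := cf.p₁) (B := Bf) (locUnit_const hr)
  have hφG : φ G ≠ 0 := (map_ne_zero φ).2 hG0
  have hGQ : G ^ Q ≠ 0 := pow_ne_zero _ hG0
  refine ⟨algebraMap R F r * h * φ G * G ^ Q,
    mul_ne_zero (mul_ne_zero (mul_ne_zero hr0 hh) hφG) hGQ, ?_⟩
  rw [map_mul φ, map_inv₀ φ, map_pow φ] at hrel
  have hφGm : φ G ^ m ≠ 0 := pow_ne_zero _ hφG
  have hC : algebraMap R F (c₁ * c₂) ^ Q = algebraMap R F r ^ m := by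
    rw [← map_pow, ← map_pow, hrC]
  rw [hC] at hrel
  have e1 : φ u * u ^ Q
      = (φ u * (φ G ^ m)⁻¹ * (u * (G ^ m)⁻¹) ^ Q) * (φ G ^ m * (G ^ m) ^ Q) := by
    rw [mul_pow, inv_pow]
    have hGmQ : (G ^ m) ^ Q ≠ 0 := pow_ne_zero _ hGm
    field_simp
  rw [e1, hrel]
  ring

end Core

/-- **The toric relation for a swapping `φ` (interface statement, valuation language).** -/
def SwapToricValStatement : Prop :=
  ∀ {R E F : Type} [CommRing R] [IsDomain R] [IsDiscreteValuationRing R] [HenselianLocalRing R]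
    [IsAlgClosed (IsLocalRing.ResidueField R)]
    [Field E] [CharZero E] [Algebra R E] [IsFractionRing R E]
    [Field F] [Algebra E F] [Algebra R F] [IsScalarTower R E F]
    (w : R) (_ : Irreducible w) (q m : ℕ) (_ : q.Prime)
    (_ : (q : R) ∈ IsLocalRing.maximalIdeal R) (_ : 0 < m) (_ : ¬ q ∣ m)
    (x : F) (_ : Transcendental E x)
    (_ : FiniteDimensional (IntermediateField.adjoin E ({x} : Set F)) F)
    (_ : ∀ f : F, IsAlgebraic E f → f ∈ (algebraMap E F).range)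
    (Bf Bi : Subalgebra R F)
    (_ : ∀ f : F, f ∈ Bf ↔ IsIntegral (Algebra.adjoin R ({x} : Set F)) f)
    (_ : ∀ f : F, f ∈ Bi ↔ IsIntegral (Algebra.adjoin R ({x⁻¹} : Set F)) f)
    (cf : SSChart w Bf) (ci : SSChart w Bi)
    (_ : SepCoord R E x Bf) (_ : SepCoord R E x⁻¹ Bi)
    (V₁ V₂ : ValuationSubring F) (_ : ValCtx w x V₁) (_ : ValCtx w x V₂) (_ : V₁ ≠ V₂)
    (φ : F ≃+* F) (φE : E ≃+* E) (φR : R ≃+* R) (Q : ℕ) (_ : 0 < Q)
    (_ : ∀ e : E, φ (algebraMap E F e) = algebraMap E F (φE e))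
    (_ : ∀ r : R, φE (algebraMap R E r) = algebraMap R E (φR r))
    (_ : ∀ r : R, ∃ s : R, φR r - r ^ Q = w * s)
    (_ : φ x = x)
    (_ : ∀ z : F, φ z ∈ V₁ ↔ z ∈ V₂) (_ : ∀ z : F, φ z ∈ V₂ ↔ z ∈ V₁)
    (_ : ∀ n : Ideal Bf, n.IsMaximal → cf.p₁ ≤ n → cf.p₂ ≤ n →
      ∀ b : Bf, b ∈ n → ∀ hb : φ b ∈ Bf, (⟨φ b, hb⟩ : Bf) ∈ n)
    (_ : ∀ n : Ideal Bi, n.IsMaximal → ci.p₁ ≤ n → ci.p₂ ≤ n →
      ∀ b : Bi, b ∈ n → ∀ hb : φ b ∈ Bi, (⟨φ b, hb⟩ : Bi) ∈ n)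
    (u : F), u ≠ 0 → DivisibleDiv E m u → GSplitV R V₁ m u → GSplitV R V₂ m u →
      ∃ h : F, h ≠ 0 ∧ φ u * u ^ Q = h ^ m

/-- **The toric relation for a swapping `φ`, from the three leaves of the A2 wall.** -/
theorem swapToricVal_of_leaves (hPS : H34.PuritySmoothLeaf) (hPN : H34.PurityNodeLeaf)
    (hG : H34.GlueLeaf) : SwapToricValStatement := by
  intro R E F _ _ _ _ _ _ _ _ _ _ _ _ _ w hw q m hq hqR hm hqm x hx hfin hconst Bf Bi hBf hBi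
    cf ci sf si V₁ V₂ h₁ h₂ hne φ φE φR Q hQ hφE hφER hfrob hφx hV₁ hV₂ hfixf hfixi u hu hdiv
    hu₁ hu₂
  have hCf : ChartCtx E w x Bf := ⟨hw, hx, hfin, hconst, hBf⟩
  have hCi : ChartCtx E w x⁻¹ Bi := H34.chartCtx_inv w hw x hx hfin hconst Bi hBi
  exact swapToricVal_core w hw q m hq hqR hm hqm x hx hfin hconst Bf Bi hBf hBi cf ci V₁ V₂
    h₁ h₂ hne φ φE φR Q hQ hφE hφER hfrob hφx hV₁ hV₂ hfixf hfixi
    (fun v hv hdv hs n hn hwn => H34.purity_of_leaves hPS hPN q m hq hqR hm hqm w x Bf hCf cf sf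
      v hv hdv hs n hn hwn)
    (fun v hv hdv hs n hn hwn => H34.purity_of_leaves hPS hPN q m hq hqR hm hqm w x⁻¹ Bi hCi ci
      si v hv hdv hs n hn hwn)
    (fun v hv hdv hf hi => hG q m hq hqR hm hqm w x Bf Bi hCf hCi cf ci
      (H34.incomparable_of_ssChart cf) (H34.incomparable_of_ssChart ci) v hv hdv hf hi)
    u hu hdiv hu₁ hu₂

end Fermat.Agent.Ribet.H818
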